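/-
S48 / Tower A1 (helper368) — piece ESK1, REPAIR of the diamond hypothesis of the generic engine
`S48/H136/ESKGFrob.lean`.

`H136.DiamondG.integral` ("the diamond automorphism `δ` maps EVERY integral series to an integral
series") is FALSE for `X₁(M)` as soon as `⟨p⟩` moves the cusp `∞` (`p ≢ ±1` mod `M`): `δ U` is the
expansion of `U` at the cusp `⟨p⟩∞`, and an integral series at `∞` may have a horizontal pole
through the reduction of `⟨p⟩∞`.  Example `M = 5`, `p = 7`: `g = P₂/P₁ ∈ q ℤ⟦q⟧`, `δ g = 1/g`,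
`U = 1/(1/(1+g) - 7) ∈ ℤ_(7)⟦q⟧` has reduction `1 + ḡ ≠ 0`, but `δ U = -(1+g)/(7+6g)` has unbounded
`7`-denominators.  Hence `H136.DiamondInt1Statement` cannot be proved.

The engine uses `.integral` ONLY for the two integral series produced by `PGIG`.  So the pair
(`PGIG`, `DiamondG.integral`) is replaced here by ONE hypothesis

* `PGIDG F₀ A Fk δ` : principal divisors are generated by the divisors of integral series `U`
  such that `δ U` is an integral series as well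

(true for `X₁(M)`: the generators `N = ∑ rᵢ(j) eᵢ` of the proof of PGI, `eᵢ` monomials in the
`P_a` and the `j(q^d)`, satisfy `δ N = ∑ rᵢ(j) δ eᵢ` with `δ eᵢ` again such a monomial), and

* `eskD_frob` : `CoreG + PGIDG + StableG + HeckeInputs + (δ commutes with Galois) + NormIdG ⟹`
  `σ² (δ x) - T (σ x) + p x = 0`  (same conclusion as `H136.eskG_frob`);
* `rawES1_of_inputsD : Core1Statement → PGID1Statement → HI1Statement → NormId1Statement →
  Res.RawES1Statement true`  (same conclusion as `H136.rawES1_of_inputs`).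
-/
import Fermat.Agent.S48.H136.RawES1

set_option autoImplicit false
set_option linter.style.haveILetI false

noncomputable section

namespace Fermat.Agent.S48.H368

open ModularCurve AlgebraicCurve HahnSeries IsLocalRing
open Fermat.Agent.S18 (Qb)
open Fermat.Agent.S29.H222 (IsDivOf decA decK galA)
open Fermat.Agent.S37.H400 (secMat)
open Fermat.Agent.S48.H136
open Fermat.Agent.S48.F1 Fermat.Agent.S48.Res

/-! ### Diamond-integral series -/

section Defs

variable (F₀ : IntermediateField ℚ (LaurentSeries ℚ)) (A : ValuationSubring Qb)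
  (Fk : IntermediateField (ResidueField A) (LaurentSeries (ResidueField A)))
  (δ : laurentBaseChange Qb F₀ ≃ₐ[Qb] laurentBaseChange Qb F₀)

/-- Divisors of integral series `U` whose image `δ U` is again (the image of) an integral
series. -/
def intPrincipalD : Set (Divisor Qb (laurentBaseChange Qb F₀)) :=
  {D | ∃ (U W : LaurentSeries A) (hU : IsIntG F₀ A Fk U) (hW : IsIntG F₀ A Fk W),
    toFG hW = δ (toFG hU) ∧ ∀ P, D P = P.ord (toFG hU)}

/-- **PGID**: principal divisors are generated by the divisors of diamond-integral series. -/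
def PGIDG : Prop :=
  Divisor.principal (K := Qb) (F := laurentBaseChange Qb F₀) ≤
    AddSubgroup.closure (intPrincipalD F₀ A Fk δ)

end Defs

variable {F₀ : IntermediateField ℚ (LaurentSeries ℚ)} {A : ValuationSubring Qb}
  {Fk : IntermediateField (ResidueField A) (LaurentSeries (ResidueField A))}
  {δ : laurentBaseChange Qb F₀ ≃ₐ[Qb] laurentBaseChange Qb F₀}

theorem intPrincipalD_subset : intPrincipalD F₀ A Fk δ ⊆ intPrincipalG F₀ A Fk := by
  rintro D ⟨U, W, hU, hW, -, hD⟩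
  exact ⟨U, hU, hD⟩

/-- `PGID` implies `PGI`. -/
theorem pgiG_of_pgidG (h : PGIDG F₀ A Fk δ) : PGIG F₀ A Fk :=
  h.trans (AddSubgroup.closure_mono intPrincipalD_subset)

/-- For the trivial diamond `PGID` is `PGI`. -/
theorem pgidG_refl (h : PGIG F₀ A Fk) : PGIDG F₀ A Fk AlgEquiv.refl := by
  refine h.trans (AddSubgroup.closure_mono ?_)
  rintro D ⟨U, hU, hD⟩
  exact ⟨U, U, hU, hU, rfl, hD⟩

/-- If the diamond preserves integral series (`H136.DiamondG`), `PGID` is `PGI`. -/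
theorem pgidG_of_diamondG (hδ : DiamondG F₀ A Fk δ) (h : PGIG F₀ A Fk) : PGIDG F₀ A Fk δ := by
  refine h.trans (AddSubgroup.closure_mono ?_)
  rintro D ⟨U, hU, hD⟩
  obtain ⟨W, hW, hUW⟩ := hδ.integral U hU
  exact ⟨U, W, hU, hW, hUW, hD⟩

/-- A principal divisor is the difference of the divisors of two diamond-integral series. -/
theorem exists_isIntD_of_principal (hpgi : PGIDG F₀ A Fk δ)
    {D : Divisor Qb (laurentBaseChange Qb F₀)}
    (hD : D ∈ Divisor.principal (K := Qb) (F := laurentBaseChange Qb F₀)) :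
    ∃ (U₁ U₂ W₁ W₂ : LaurentSeries A) (h₁ : IsIntG F₀ A Fk U₁) (h₂ : IsIntG F₀ A Fk U₂)
      (hW₁ : IsIntG F₀ A Fk W₁) (hW₂ : IsIntG F₀ A Fk W₂)
      (D₁ D₂ : Divisor Qb (laurentBaseChange Qb F₀)),
      toFG hW₁ = δ (toFG h₁) ∧ toFG hW₂ = δ (toFG h₂) ∧
      IsDivOf (toFG h₁) D₁ ∧ IsDivOf (toFG h₂) D₂ ∧ D = D₁ - D₂ := by
  have hD' := hpgi hD
  clear hD
  induction hD' using AddSubgroup.closure_induction with
  | mem E hE =>
      obtain ⟨U, W, hU, hW, hUW, hEy⟩ := hE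
      refine ⟨U, 1, W, 1, hU, isIntG_one, hW, isIntG_one, E, 0, hUW, ?_, fun v => hEy v,
        fun v => ?_, by simp⟩
      · rw [toFG_one, map_one]
      · rw [toFG_one]
        simp
  | zero =>
      refine ⟨1, 1, 1, 1, isIntG_one, isIntG_one, isIntG_one, isIntG_one, 0, 0, ?_, ?_,
        fun v => ?_, fun v => ?_, by simp⟩
      · rw [toFG_one, map_one]
      · rw [toFG_one, map_one]
      · rw [toFG_one]
        simp
      · rw [toFG_one]
        simp
  | add E E' _ _ hE hE' =>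
      obtain ⟨U₁, U₂, W₁, W₂, h₁, h₂, hW₁, hW₂, D₁, D₂, e₁, e₂, hd₁, hd₂, rfl⟩ := hE
      obtain ⟨U₁', U₂', W₁', W₂', h₁', h₂', hW₁', hW₂', D₁', D₂', e₁', e₂', hd₁', hd₂', rfl⟩ :=
        hE'
      refine ⟨U₁ * U₁', U₂ * U₂', W₁ * W₁', W₂ * W₂', isIntG_mul h₁ h₁', isIntG_mul h₂ h₂',
        isIntG_mul hW₁ hW₁', isIntG_mul hW₂ hW₂', D₁ + D₁', D₂ + D₂', ?_, ?_, ?_, ?_, by abel⟩
      · rw [toFG_mul hW₁ hW₁', toFG_mul h₁ h₁', map_mul, e₁, e₁']
      · rw [toFG_mul hW₂ hW₂', toFG_mul h₂ h₂', map_mul, e₂, e₂']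
      · rw [toFG_mul h₁ h₁']
        exact hd₁.mul (toFG_ne_zero h₁) (toFG_ne_zero h₁') hd₁'
      · rw [toFG_mul h₂ h₂']
        exact hd₂.mul (toFG_ne_zero h₂) (toFG_ne_zero h₂') hd₂'
  | neg E _ hE =>
      obtain ⟨U₁, U₂, W₁, W₂, h₁, h₂, hW₁, hW₂, D₁, D₂, e₁, e₂, hd₁, hd₂, rfl⟩ := hE
      exact ⟨U₂, U₁, W₂, W₁, h₂, h₁, hW₂, hW₁, D₂, D₁, e₂, e₁, hd₂, hd₁, by abel⟩

/-! ### The integral Kronecker norm (Galois-compatibility of `δ` only) -/

section Kron

variable {p : ℕ} [Fact p.Prime] [NeZero p] [CharP (ResidueField A) p]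

variable {F' : Type*} [Field F'] [Algebra Qb F']
  {α β : laurentBaseChange Qb F₀ →ₐ[Qb] F'}

/-- `δ (σ U) = σ W` when `δ U = W`. -/
theorem toFG_galA_diamondD (hst : StableG A Fk)
    (hgal : ∀ (σ : Qb ≃ₐ[ℚ] Qb) (y : laurentBaseChange Qb F₀),
      δ (arithmeticGalois F₀ σ • y) = arithmeticGalois F₀ σ • δ y)
    (g : A.decompositionSubgroup ℚ) {U W : LaurentSeries A}
    (hU : IsIntG F₀ A Fk U) (hW : IsIntG F₀ A Fk W) (hUW : toFG hW = δ (toFG hU)) :
    toFG (isIntG_galA hst g hW) = δ (toFG (isIntG_galA hst g hU)) := by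
  rw [toFG_galA hst g hW, toFG_galA hst g hU, hgal, hUW]

/-- The integral Kronecker norm `K(U) = kron2 p (σU) (σW)`, `W = δ U`. -/
theorem isIntG_kron2_galAD (hst : StableG A Fk)
    (hgal : ∀ (σ : Qb ≃ₐ[ℚ] Qb) (y : laurentBaseChange Qb F₀),
      δ (arithmeticGalois F₀ σ • y) = arithmeticGalois F₀ σ • δ y)
    (hnid : NormIdG α β p δ) {g : A.decompositionSubgroup ℚ}
    (hgk : decK g = frobenius (ResidueField A) p) {U W : LaurentSeries A}
    (hU : IsIntG F₀ A Fk U) (hW : IsIntG F₀ A Fk W) (hUW : toFG hW = δ (toFG hU)) :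
    IsIntG F₀ A Fk (kron2 p (galA g U) (galA g W)) := by
  refine ⟨?_, ?_, ?_⟩
  · rw [coeffMap_kron2]
    have h := hnid (toFG (isIntG_galA hst g hU))
    rw [← toFG_galA_diamondD hst hgal g hU hW hUW, coe_toFG, coe_toFG] at h
    rw [← h]
    exact (normG α β (toFG (isIntG_galA hst g hU))).2
  · rw [coeffMap_residue_kron2_galA hgk]
    exact mul_mem (pow_mem hU.2.1 p) (hst _ _ (hst _ _ hW.2.1))
  · rw [coeffMap_residue_kron2_galA hgk]
    exact mul_ne_zero (pow_ne_zero p hU.2.2)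
      (Fermat.Agent.S29.H222.coeffMap_ne_zero_of_injective _
        (Fermat.Agent.S29.H222.decK_injective g)
        (Fermat.Agent.S29.H222.coeffMap_ne_zero_of_injective _
          (Fermat.Agent.S29.H222.decK_injective g) hW.2.2))

theorem toFG_kron2_galAD (hst : StableG A Fk)
    (hgal : ∀ (σ : Qb ≃ₐ[ℚ] Qb) (y : laurentBaseChange Qb F₀),
      δ (arithmeticGalois F₀ σ • y) = arithmeticGalois F₀ σ • δ y)
    (hnid : NormIdG α β p δ) {g : A.decompositionSubgroup ℚ}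
    (hgk : decK g = frobenius (ResidueField A) p) {U W : LaurentSeries A}
    (hU : IsIntG F₀ A Fk U) (hW : IsIntG F₀ A Fk W) (hUW : toFG hW = δ (toFG hU)) :
    toFG (isIntG_kron2_galAD hst hgal hnid hgk hU hW hUW)
      = normG α β (toFG (isIntG_galA hst g hU)) := by
  apply Subtype.ext
  have h := hnid (toFG (isIntG_galA hst g hU))
  rw [← toFG_galA_diamondD hst hgal g hU hW hUW, coe_toFG, coe_toFG] at h
  rw [coe_toFG, coeffMap_kron2, h]

end Kron

/-! ### ESK-F with diamond, repaired hypotheses -/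

/-- **Generic ESK-F with diamond** under `PGID`.  Every Frobenius element `σ` at `A` satisfies
`σ² (δ x) - T (σ x) + p x = 0` on the `m`-torsion of `Pic0 ℚ̄ (ℚ̄ · F₀)`. -/
theorem eskD_frob {p : ℕ} (hp : p.Prime) {m : ℕ} (hm : m ≠ 0) (hA : A.LiesOverPrime p)
    (hcore : CoreG F₀ A Fk m) (hst : StableG A Fk)
    {F' : Type*} [Field F'] [Algebra Qb F'] [HasPrincipalDivisors Qb F']
    (α β : laurentBaseChange Qb F₀ →ₐ[Qb] F')
    (hα : α.toRingHom.IsIntegral) (hβ : β.toRingHom.IsIntegral)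
    (hFI : FundamentalIdentityAlong Qb β hβ) (hfin : FiniteAlong Qb α)
    (hN : NormFormulaAlong Qb α hfin)
    (δ : laurentBaseChange Qb F₀ ≃ₐ[Qb] laurentBaseChange Qb F₀)
    (hgal : ∀ (σ : Qb ≃ₐ[ℚ] Qb) (y : laurentBaseChange Qb F₀),
      δ (arithmeticGalois F₀ σ • y) = arithmeticGalois F₀ σ • δ y)
    (hpgi : PGIDG F₀ A Fk δ)
    (hnid : haveI : NeZero p := ⟨hp.ne_zero⟩; NormIdG α β p δ) :
    ∀ σ : Qb ≃ₐ[ℚ] Qb, A.IsFrobeniusAt σ p →
      ∀ x : Pic0 Qb (laurentBaseChange Qb F₀), (m : ℤ) • x = 0 →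
        σ • σ • (δ • x) - Pic0.correspondence β α hβ hα hFI hfin hN (σ • x) + (p : ℤ) • x = 0 := by
  intro σ hσ x hx
  haveI : NeZero p := ⟨hp.ne_zero⟩
  haveI : Fact p.Prime := ⟨hp⟩
  haveI : CharP (ResidueField A) p :=
    Fermat.Agent.S29.H222.charP_residueField_of_liesOver hp hA
  obtain ⟨hdec, hfrob⟩ := hσ
  set g : A.decompositionSubgroup ℚ := ⟨σ, hdec⟩ with hg
  have hgk : decK g = frobenius (ResidueField A) p := RingHom.ext fun x => hfrob x
  obtain ⟨D, rfl⟩ := Pic0.mk_surjective x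
  obtain ⟨U₁, U₂, W₁, W₂, h₁, h₂, hW₁, hW₂, D₁, D₂, hUW₁, hUW₂, hd₁, hd₂, hDD⟩ :=
    exists_isIntD_of_principal hpgi (smul_mem_principal_of_torsionG D hx)
  set G := arithmeticGalois F₀ σ with hG
  -- the integral series
  have hg₁ := isIntG_galA hst g h₁
  have hg₂ := isIntG_galA hst g h₂
  have hgW₁ := isIntG_galA hst g hW₁
  have hgW₂ := isIntG_galA hst g hW₂
  have hggW₁ := isIntG_galA hst g hgW₁
  have hggW₂ := isIntG_galA hst g hgW₂
  have hK₁ := isIntG_kron2_galAD hst hgal hnid hgk h₁ hW₁ hUW₁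
  have hK₂ := isIntG_kron2_galAD hst hgal hnid hgk h₂ hW₂ hUW₂
  have hV₁ : IsIntG F₀ A Fk
      (galA g (galA g W₁) * U₁ ^ p * kron2 p (galA g U₂) (galA g W₂)) :=
    isIntG_mul (isIntG_mul hggW₁ (isIntG_pow h₁ p)) hK₂
  have hV₂ : IsIntG F₀ A Fk
      (galA g (galA g W₂) * U₂ ^ p * kron2 p (galA g U₁) (galA g W₁)) :=
    isIntG_mul (isIntG_mul hggW₂ (isIntG_pow h₂ p)) hK₁
  -- equal reductions
  have hred : coeffMap (residue A)
        (galA g (galA g W₁) * U₁ ^ p * kron2 p (galA g U₂) (galA g W₂))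
      = coeffMap (residue A)
        (galA g (galA g W₂) * U₂ ^ p * kron2 p (galA g U₁) (galA g W₁)) := by
    simp only [map_mul, map_pow, Fermat.Agent.S29.H222.coeffMap_residue_galA,
      coeffMap_residue_kron2_galA hgk]
    ring
  -- divisors
  have hδ₁ : IsDivOf (toFG hW₁) (δ • D₁) := by rw [hUW₁]; exact isDivOf_algEquiv δ hd₁
  have hδ₂ : IsDivOf (toFG hW₂) (δ • D₂) := by rw [hUW₂]; exact isDivOf_algEquiv δ hd₂
  have hσ₁ : IsDivOf (toFG hg₁) (G • D₁) := by rw [toFG_galA hst]; exact hd₁.smul G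
  have hσ₂ : IsDivOf (toFG hg₂) (G • D₂) := by rw [toFG_galA hst]; exact hd₂.smul G
  have hσW₁ : IsDivOf (toFG hgW₁) (G • δ • D₁) := by rw [toFG_galA hst]; exact hδ₁.smul G
  have hσW₂ : IsDivOf (toFG hgW₂) (G • δ • D₂) := by rw [toFG_galA hst]; exact hδ₂.smul G
  have hσσ₁ : IsDivOf (toFG hggW₁) (G • G • δ • D₁) := by
    rw [toFG_galA hst]; exact hσW₁.smul G
  have hσσ₂ : IsDivOf (toFG hggW₂) (G • G • δ • D₂) := by
    rw [toFG_galA hst]; exact hσW₂.smul G
  have hp₁ : IsDivOf (toFG (isIntG_pow h₁ p)) ((p : ℤ) • D₁) := by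
    rw [toFG_pow]; exact hd₁.pow p
  have hp₂ : IsDivOf (toFG (isIntG_pow h₂ p)) ((p : ℤ) • D₂) := by
    rw [toFG_pow]; exact hd₂.pow p
  have hT₁ : IsDivOf (toFG hK₁) (Divisor.correspondence β α hβ hα (G • D₁)) := by
    rw [toFG_kron2_galAD hst hgal hnid hgk h₁ hW₁ hUW₁]
    exact isDivOf_correspondenceG hα hβ hfin hN (toFG_ne_zero hg₁) hσ₁
  have hT₂ : IsDivOf (toFG hK₂) (Divisor.correspondence β α hβ hα (G • D₂)) := by
    rw [toFG_kron2_galAD hst hgal hnid hgk h₂ hW₂ hUW₂]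
    exact isDivOf_correspondenceG hα hβ hfin hN (toFG_ne_zero hg₂) hσ₂
  have hdV₁ : IsDivOf (toFG hV₁)
      (G • G • δ • D₁ + (p : ℤ) • D₁ + Divisor.correspondence β α hβ hα (G • D₂)) := by
    rw [toFG_mul (isIntG_mul hggW₁ (isIntG_pow h₁ p)) hK₂, toFG_mul hggW₁ (isIntG_pow h₁ p)]
    exact ((hσσ₁.mul (toFG_ne_zero _) (toFG_ne_zero _) hp₁).mul
      (mul_ne_zero (toFG_ne_zero _) (toFG_ne_zero _)) (toFG_ne_zero _) hT₂)
  have hdV₂ : IsDivOf (toFG hV₂)
      (G • G • δ • D₂ + (p : ℤ) • D₂ + Divisor.correspondence β α hβ hα (G • D₁)) := by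
    rw [toFG_mul (isIntG_mul hggW₂ (isIntG_pow h₂ p)) hK₁, toFG_mul hggW₂ (isIntG_pow h₂ p)]
    exact ((hσσ₂.mul (toFG_ne_zero _) (toFG_ne_zero _) hp₂).mul
      (mul_ne_zero (toFG_ne_zero _) (toFG_ne_zero _)) (toFG_ne_zero _) hT₁)
  -- the divisor of the relation
  set Dv : Divisor Qb (laurentBaseChange Qb F₀) := (D : Divisor Qb (laurentBaseChange Qb F₀))
    with hDv
  set E : Divisor Qb (laurentBaseChange Qb F₀) :=
    G • G • δ • Dv - Divisor.correspondence β α hβ hα (G • Dv) + (p : ℤ) • Dv with hE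
  have hGz : ∀ X : Divisor Qb (laurentBaseChange Qb F₀),
      G • ((m : ℤ) • X) = (m : ℤ) • (G • X) :=
    fun X => map_zsmul (DistribSMul.toAddMonoidHom (Divisor Qb (laurentBaseChange Qb F₀)) G) m X
  have hδz : ∀ X : Divisor Qb (laurentBaseChange Qb F₀),
      δ • ((m : ℤ) • X) = (m : ℤ) • (δ • X) :=
    fun X => map_zsmul (DistribSMul.toAddMonoidHom (Divisor Qb (laurentBaseChange Qb F₀)) δ) m X
  have hmE : (m : ℤ) • E
      = (G • G • δ • D₁ + (p : ℤ) • D₁ + Divisor.correspondence β α hβ hα (G • D₂))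
        - (G • G • δ • D₂ + (p : ℤ) • D₂ + Divisor.correspondence β α hβ hα (G • D₁)) := by
    have e1 : (m : ℤ) • E = G • G • δ • ((m : ℤ) • Dv)
        - Divisor.correspondence β α hβ hα (G • ((m : ℤ) • Dv))
        + (p : ℤ) • ((m : ℤ) • Dv) := by
      rw [hE, smul_add, smul_sub, hδz, hGz, hGz, hGz, map_zsmul, smul_comm (m : ℤ) (p : ℤ) Dv]
    rw [e1, hDD]
    simp only [smul_sub, map_sub]
    abel
  have hkey : ∀ v : Place Qb (laurentBaseChange Qb F₀),
      (m : ℤ) * E v = v.ord (toFG hV₁) - v.ord (toFG hV₂) := by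
    intro v
    rw [← hdV₁ v, ← hdV₂ v, ← Finsupp.sub_apply, ← hmE, Finsupp.smul_apply, smul_eq_mul]
  have hord : ∀ v : Place Qb (laurentBaseChange Qb F₀),
      (m : ℤ) ∣ v.ord (toFG hV₁) - v.ord (toFG hV₂) := fun v => ⟨_, (hkey v).symm⟩
  obtain ⟨c, y, hc, hy, hcy⟩ := hcore _ _ hV₁ hV₂ hred hord
  have hEy : IsDivOf y E :=
    Fermat.Agent.S29.H222.isDivOf_of_eq_const_mul_pow hm hc hy (toFG_ne_zero hV₂) hcy hkey
  -- conclusion in `Pic0`
  rw [Pic0.smul_mk, galois_smul_mkG, galois_smul_mkG, galois_smul_mkG, Pic0.correspondence_mk]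
  have hfinal : (Pic0.mk (SemilinearAut.degZeroSMulHom G
        (SemilinearAut.degZeroSMulHom G (Pic0.degZeroSMulHom δ D)))
      - Pic0.mk (Pic0.degZeroCorrespondence β α hβ hα hFI (SemilinearAut.degZeroSMulHom G D))
      + (p : ℤ) • Pic0.mk D : Pic0 Qb (laurentBaseChange Qb F₀))
      = Pic0.mk (SemilinearAut.degZeroSMulHom G
          (SemilinearAut.degZeroSMulHom G (Pic0.degZeroSMulHom δ D))
          - Pic0.degZeroCorrespondence β α hβ hα hFI (SemilinearAut.degZeroSMulHom G D)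
          + (p : ℤ) • D) := rfl
  rw [hfinal]
  exact pic0_mk_eq_zero_of_isDivOfG _ hy hEy

/-! ### The adapter to `Res.RawES1Statement true` -/

/-- **PGID1**: principal divisors of `ℚ̄ · F1 M` are generated by the divisors of integral series
`U` such that `⟨p⟩ U = diamondAut (unitOf M p) U` is an integral series as well.  Replaces the pair
`H136.PGI1Statement`, `H136.DiamondInt1Statement` (the latter is false). -/
def PGID1Statement : Prop :=
  ∀ (M p : ℕ), M ≠ 0 → p.Prime → ¬ p ∣ M →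
    ∀ A : ValuationSubring Qb, A.LiesOverPrime p →
      PGIDG (F1 M) A (F1C (ResidueField A) M) (diamondAut Qb M (unitOf M p))

/-- `PGID1` implies `PGI1`. -/
theorem pgi1_of_pgid1 (h : PGID1Statement) : PGI1Statement :=
  fun M p hM hp hpM A hA => pgiG_of_pgidG (h M p hM hp hpM A hA)

/-- **RawES1 from its four (true) inputs** (exact shape of `Res/Parts.lean`, orientation
`s = true`). -/
theorem rawES1_of_inputsD (hcore : Core1Statement) (hpgid : PGID1Statement)
    (hHI : HI1Statement) (hnid : NormId1Statement) : RawES1Statement true := by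
  intro M ℓ p hM hℓ hp hpMℓ A hA
  have hpM : ¬ p ∣ M := fun h => hpMℓ (Dvd.dvd.mul_right h ℓ)
  haveI : NeZero p := ⟨hp.ne_zero⟩
  have hC := hcore M ℓ p hM hℓ hp hpMℓ A hA
  have hPD := hpgid M p hM hp hpM A hA
  have hP := pgiG_of_pgidG hPD
  have hst := stableG_F1C A M
  refine ⟨eskG_inertia hℓ.ne_zero hC hP hst, ?_⟩
  intro σ hσ x hx
  obtain ⟨hβ, hα, hPDiv, hfin, hFI, hN⟩ := hHI M p hM hp hpM
  haveI := hPDiv
  have h := eskD_frob hp hℓ.ne_zero hA hC hst (alpha1 Qb M p) (beta1 Qb M p) hα hβ hFI hfin hN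
    (diamondAut Qb M (unitOf M p)) (fun σ y => diamondAut_galois M (unitOf M p) σ y) hPD
    (hnid M p hM hp hpM) σ hσ x hx
  have hT : hecke1 M p = (Pic0.correspondence (beta1 Qb M p) (alpha1 Qb M p) hβ hα hFI hfin
      hN).toIntLinearMap := by
    rw [hecke1_eq, heckeL, corrOp_eq (beta1 Qb M p) (alpha1 Qb M p) hβ hα hFI hfin hN]
  have hD : diamondS true M p (σ • σ • x)
      = σ • σ • (diamondAut Qb M (unitOf M p) • x) := by
    show diamond1 M (unitOf M p) (σ • σ • x) = _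
    rw [galois_smul_diamond1, galois_smul_diamond1, diamond1_apply, pic0_ofAlgAut_smul]
  rw [hD, hT]
  exact h

end Fermat.Agent.S48.H368
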