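import Mathlib

/-!
# Row S48 (Deligne–Serre), piece EMB (helper368)

`nonempty_algHom_complex`: if `O` is a countable domain with a fixed embedding into `ℂ`
(`[Algebra O ℂ]`, injective) and `E` is a field containing `O`, of cardinality at most the
continuum, then there is an `O`-algebra embedding `E →ₐ[O] ℂ`.

Used to transport a lifted `ℓ`-adic representation (`E = ℚ_[ℓ]`) to `ℂ` compatibly with the
coefficient ring `O` (e.g. the ring of integers of the coefficient number field).
-/

set_option autoImplicit false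

open Cardinal

namespace Fermat.Agent.S48.H368

/-- A field `E ⊇ O` with a transcendence basis over `O` that injects into an algebraically
independent family of an algebraically closed field `Ω ⊇ O` embeds into `Ω` over `O`. -/
theorem nonempty_algHom_of_algebraicIndependent {O E Ω : Type*} [CommRing O] [IsDomain O]
    [Field E] [Field Ω] [Algebra O E] [Algebra O Ω] [IsAlgClosed Ω] {ι κ : Type*} (v : ι → E)
    (hv : IsTranscendenceBasis O v) (w : κ → Ω) (hw : AlgebraicIndependent O w)
    (e : ι → κ) (he : Function.Injective e) : Nonempty (E →ₐ[O] Ω) := by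
  classical
  let A := Algebra.adjoin O (Set.range v)
  have hwe : AlgebraicIndependent O (w ∘ e) := hw.comp e he
  let φ : A →ₐ[O] Ω :=
    (MvPolynomial.aeval (w ∘ e)).comp (hv.1.aevalEquiv.symm : A →ₐ[O] MvPolynomial ι O)
  have hφ : Function.Injective φ := by
    have h1 : Function.Injective (MvPolynomial.aeval (R := O) (w ∘ e)) := hwe
    exact h1.comp hv.1.aevalEquiv.symm.injective
  let _ : Algebra A Ω := φ.toRingHom.toAlgebra
  have : IsScalarTower O A Ω := IsScalarTower.of_algebraMap_eq fun x => (φ.commutes x).symm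
  have : Algebra.IsAlgebraic A E := hv.isAlgebraic
  have : Module.IsTorsionFree A Ω := Module.isTorsionFree_iff_algebraMap_injective.mpr hφ
  exact ⟨(IsAlgClosed.lift (R := A) (S := E) (M := Ω)).restrictScalars O⟩

/-- **EMB.**  A field `E` containing a countable domain `O ⊆ ℂ`, of cardinality at most the
continuum, embeds into `ℂ` over `O`. -/
theorem nonempty_algHom_complex {O E : Type} [CommRing O] [IsDomain O] [Field E] [Algebra O E]
    [Algebra O ℂ] [FaithfulSMul O E] [FaithfulSMul O ℂ] [Countable O] (hE : #E ≤ 𝔠) :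
    Nonempty (E →ₐ[O] ℂ) := by
  classical
  obtain ⟨s, hs⟩ := exists_isTranscendenceBasis O E
  obtain ⟨t, ht⟩ := exists_isTranscendenceBasis O ℂ
  have hct : #ℂ = #t :=
    IsAlgClosed.cardinal_eq_cardinal_transcendence_basis_of_aleph0_lt' (R := O) (K' := ℂ)
      ((↑) : t → ℂ) ht (Cardinal.mk_le_aleph0)
      (by rw [Cardinal.mk_complex]; exact aleph0_lt_continuum)
  have hst : #s ≤ #t := by
    rw [← hct, Cardinal.mk_complex]
    exact (Cardinal.mk_set_le s).trans hE
  obtain ⟨e⟩ := (Cardinal.le_def _ _).1 hst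
  exact nonempty_algHom_of_algebraicIndependent ((↑) : s → E) hs ((↑) : t → ℂ) ht.1 e e.injective

/-- The field `ℚ_[p]` has cardinality at most the continuum. -/
theorem mk_padic_le (p : ℕ) [Fact p.Prime] : #ℚ_[p] ≤ 𝔠 := by
  have h1 : #ℚ_[p] ≤ #(CauSeq ℚ (padicNorm p)) := Cardinal.mk_quotient_le
  have h2 : #(CauSeq ℚ (padicNorm p)) ≤ #(ℕ → ℚ) := Cardinal.mk_subtype_le _
  have h3 : #(ℕ → ℚ) = 𝔠 := by
    rw [← Cardinal.power_def, Cardinal.mkRat, Cardinal.mk_nat, Cardinal.aleph0_power_aleph0]
  exact h1.trans (h2.trans h3.le)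

/-- **EMB for `ℚ_[p]`.**  For a countable domain `O` with injective ring homomorphisms
`j : O → ℂ` and `ι : O → ℚ_[p]` there is a field embedding `σ : ℚ_[p] → ℂ` with
`σ ∘ ι = j`. -/
theorem exists_padic_embedding (p : ℕ) [Fact p.Prime] {O : Type} [CommRing O] [IsDomain O]
    [Countable O] (j : O →+* ℂ) (hj : Function.Injective j) (ι : O →+* ℚ_[p])
    (hι : Function.Injective ι) :
    ∃ σ : ℚ_[p] →+* ℂ, ∀ x : O, σ (ι x) = j x := by
  let _ : Algebra O ℂ := j.toAlgebra
  let _ : Algebra O ℚ_[p] := ι.toAlgebra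
  have : FaithfulSMul O ℂ := (faithfulSMul_iff_algebraMap_injective O ℂ).mpr hj
  have : FaithfulSMul O ℚ_[p] := (faithfulSMul_iff_algebraMap_injective O ℚ_[p]).mpr hι
  obtain ⟨σ⟩ := nonempty_algHom_complex (O := O) (E := ℚ_[p]) (mk_padic_le p)
  exact ⟨σ.toRingHom, fun x => σ.commutes x⟩

end Fermat.Agent.S48.H368
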