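import Mathlib

/-!
# S48 / Tower A1 / node I-GRP (helper368): the group theory of the decomposition-group argument

Mathlib-only.  Contents:

* `upperU t`, `lowerU t` : the elementary matrices of `SL₂(R)`; `elemSubgroup R` the subgroup they
  generate;
* `exists_isUnit_add_mul` : stable range one for `ZMod M` (`M ≠ 0`): if `a d - b c = 1` there is
  `t` with `a + t c` a unit;
* `elemSubgroup_zmod_eq_top` : `SL₂(ℤ/M)` is generated by elementary matrices (`M ≠ 0`), and
  `elemSubgroup_int_eq_top` for `ℤ`;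
* `normalClosure_le_of_mul` : if `G = D·B`, `U ≤ D` and `B` normalises `U`, then every conjugate
  of `U` lies in `D`;
* `map_sl2_le_of_mul` : if `ι : SL₂(ℤ/M) → G`, `G = D·B`, `ι(U) ≤ D` and `B` normalises `ι(U)` then
  `ι(SL₂(ℤ/M)) ≤ D`  (memo IGUSA1 §2 (c));
* `exists_mul_of_normal_le` : if `N ◁ G`, `N ≤ D` and `G = H·N` then `G = D·H` (memo §2 (d));
* `eq_scalar_of_conj_upper` : a `2 × 2` matrix all of whose conjugates by elementary matrices
  are upper triangular is scalar (memo §2 (e));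
* `exists_conj_upperU` : an upper triangular `b ∈ GL₂(R)` normalises the unipotent radical;
* `map_elemSubgroup_le_of_mul`, `exists_mul_of_sl2` : variants.
-/

set_option autoImplicit false

namespace Fermat.Agent.S48.H368

open Matrix

section Elem

variable {R : Type*} [CommRing R]

/-- The upper unitriangular matrix `(1 t; 0 1)`. -/
def upperU (t : R) : Matrix.SpecialLinearGroup (Fin 2) R :=
  ⟨!![1, t; 0, 1], by simp [Matrix.det_fin_two]⟩

/-- The lower unitriangular matrix `(1 0; t 1)`. -/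
def lowerU (t : R) : Matrix.SpecialLinearGroup (Fin 2) R :=
  ⟨!![1, 0; t, 1], by simp [Matrix.det_fin_two]⟩

@[simp] theorem coe_upperU (t : R) :
    ((upperU t : Matrix.SpecialLinearGroup (Fin 2) R) : Matrix (Fin 2) (Fin 2) R) =
      !![1, t; 0, 1] := rfl

@[simp] theorem coe_lowerU (t : R) :
    ((lowerU t : Matrix.SpecialLinearGroup (Fin 2) R) : Matrix (Fin 2) (Fin 2) R) =
      !![1, 0; t, 1] := rfl

theorem upperU_add (s t : R) : upperU (s + t) = upperU s * upperU t := by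
  apply Subtype.ext
  simp only [Matrix.SpecialLinearGroup.coe_mul, coe_upperU]
  ext i j
  fin_cases i <;> fin_cases j <;> simp [Matrix.mul_apply, Fin.sum_univ_two, add_comm]

theorem lowerU_add (s t : R) : lowerU (s + t) = lowerU s * lowerU t := by
  apply Subtype.ext
  simp only [Matrix.SpecialLinearGroup.coe_mul, coe_lowerU]
  ext i j
  fin_cases i <;> fin_cases j <;> simp [Matrix.mul_apply, Fin.sum_univ_two]

theorem upperU_zero : upperU (0 : R) = 1 := by
  apply Subtype.ext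
  simp only [coe_upperU, Matrix.SpecialLinearGroup.coe_one]
  ext i j
  fin_cases i <;> fin_cases j <;> simp

theorem lowerU_zero : lowerU (0 : R) = 1 := by
  apply Subtype.ext
  simp only [coe_lowerU, Matrix.SpecialLinearGroup.coe_one]
  ext i j
  fin_cases i <;> fin_cases j <;> simp

theorem upperU_neg (t : R) : upperU (-t) = (upperU t)⁻¹ := by
  rw [eq_inv_iff_mul_eq_one, ← upperU_add, neg_add_cancel, upperU_zero]

theorem lowerU_neg (t : R) : lowerU (-t) = (lowerU t)⁻¹ := by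
  rw [eq_inv_iff_mul_eq_one, ← lowerU_add, neg_add_cancel, lowerU_zero]

/-- The Weyl element `w = (0 -1; 1 0)`, as a product of elementary matrices. -/
def weylW (R : Type*) [CommRing R] : Matrix.SpecialLinearGroup (Fin 2) R :=
  upperU (-1) * lowerU 1 * upperU (-1)

theorem coe_weylW :
    ((weylW R : Matrix.SpecialLinearGroup (Fin 2) R) : Matrix (Fin 2) (Fin 2) R) =
      !![0, -1; 1, 0] := by
  simp only [weylW, Matrix.SpecialLinearGroup.coe_mul, coe_upperU, coe_lowerU]
  ext i j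
  fin_cases i <;> fin_cases j <;> simp [Matrix.mul_apply, Fin.sum_univ_two]

/-- `w · (1 t; 0 1) · w⁻¹ = (1 0; -t 1)`. -/
theorem weylW_mul_upperU (t : R) : weylW R * upperU t = lowerU (-t) * weylW R := by
  apply Subtype.ext
  simp only [Matrix.SpecialLinearGroup.coe_mul, coe_upperU, coe_lowerU, coe_weylW]
  ext i j
  fin_cases i <;> fin_cases j <;> simp [Matrix.mul_apply, Fin.sum_univ_two]

theorem lowerU_eq_conj (t : R) : lowerU t = weylW R * upperU (-t) * (weylW R)⁻¹ := by
  rw [weylW_mul_upperU, neg_neg, mul_inv_cancel_right]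

variable (R) in
/-- The subgroup of `SL₂(R)` generated by the elementary matrices. -/
def elemSubgroup : Subgroup (Matrix.SpecialLinearGroup (Fin 2) R) :=
  Subgroup.closure (Set.range (upperU (R := R)) ∪ Set.range (lowerU (R := R)))

theorem upperU_mem (t : R) : upperU t ∈ elemSubgroup R :=
  Subgroup.subset_closure (Or.inl ⟨t, rfl⟩)

theorem lowerU_mem (t : R) : lowerU t ∈ elemSubgroup R :=
  Subgroup.subset_closure (Or.inr ⟨t, rfl⟩)

theorem weylW_mem : weylW R ∈ elemSubgroup R :=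
  mul_mem (mul_mem (upperU_mem _) (lowerU_mem _)) (upperU_mem _)

theorem sl2_det_eq (g : Matrix.SpecialLinearGroup (Fin 2) R) :
    g 0 0 * g 1 1 - g 0 1 * g 1 0 = 1 := by
  have := g.det_coe
  rwa [Matrix.det_fin_two] at this

/-- An upper triangular element of `SL₂(R)` is a product of elementary matrices. -/
theorem mem_elemSubgroup_of_lowerLeft_zero (g : Matrix.SpecialLinearGroup (Fin 2) R)
    (h : g 1 0 = 0) : g ∈ elemSubgroup R := by
  have hdet := sl2_det_eq g
  rw [h, mul_zero, sub_zero] at hdet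
  have key : g = upperU (g 0 0) * lowerU (-(g 1 1)) * upperU (g 0 0) * weylW R *
      upperU (g 1 1 * g 0 1) := by
    apply Subtype.ext
    simp only [Matrix.SpecialLinearGroup.coe_mul, coe_upperU, coe_lowerU, coe_weylW]
    ext i j
    fin_cases i <;> fin_cases j <;>
      simp [Matrix.mul_apply, Fin.sum_univ_two, h] <;>
      first
      | linear_combination (g 0 0) * hdet
      | linear_combination (-(g 0 0)) * hdet
      | linear_combination (g 0 1 * (g 0 0 * g 1 1 - 1) - 1) * hdet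
      | linear_combination (-(g 0 1 * (g 0 0 * g 1 1 - 1) - 1)) * hdet
      | linear_combination hdet
      | linear_combination (-1 : R) * hdet
      | linear_combination (g 1 1 * g 0 1) * hdet
      | linear_combination (-(g 1 1 * g 0 1)) * hdet
  rw [key]
  exact mul_mem (mul_mem (mul_mem (mul_mem (upperU_mem _) (lowerU_mem _)) (upperU_mem _))
    weylW_mem) (upperU_mem _)

/-- An element of `SL₂(R)` whose upper left entry is a unit is a product of elementary
matrices. -/
theorem mem_elemSubgroup_of_isUnit (g : Matrix.SpecialLinearGroup (Fin 2) R)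
    (h : IsUnit (g 0 0)) : g ∈ elemSubgroup R := by
  obtain ⟨u, hu⟩ := h
  have h1 : lowerU (-(g 1 0) * (↑u⁻¹ : R)) * g ∈ elemSubgroup R := by
    apply mem_elemSubgroup_of_lowerLeft_zero
    have : (↑u⁻¹ : R) * g 0 0 = 1 := by rw [← hu]; simp
    have e : (lowerU (-(g 1 0) * (↑u⁻¹ : R)) * g) 1 0 =
        -(g 1 0) * (↑u⁻¹ : R) * g 0 0 + g 1 0 := by
      simp [Matrix.SpecialLinearGroup.coe_mul, Matrix.mul_apply, Fin.sum_univ_two]
    rw [e]
    linear_combination (-(g 1 0)) * this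
  have := mul_mem (inv_mem (lowerU_mem (-(g 1 0) * (↑u⁻¹ : R)))) h1
  simpa using this

/-- If some `a + t c` is a unit (`a, c` the first column of `g`), then `g` is a product of
elementary matrices. -/
theorem mem_elemSubgroup_of_exists (g : Matrix.SpecialLinearGroup (Fin 2) R)
    (h : ∃ t : R, IsUnit (g 0 0 + t * g 1 0)) : g ∈ elemSubgroup R := by
  obtain ⟨t, ht⟩ := h
  have h1 : upperU t * g ∈ elemSubgroup R := by
    apply mem_elemSubgroup_of_isUnit
    have : (upperU t * g) 0 0 = g 0 0 + t * g 1 0 := by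
      simp [Matrix.SpecialLinearGroup.coe_mul, Matrix.mul_apply, Fin.sum_univ_two]
    rw [this]; exact ht
  have := mul_mem (inv_mem (upperU_mem t)) h1
  simpa using this

end Elem

section ZMod

/-- **Stable range one for `ℤ/M`.**  If `a d - b c = 1` in `ZMod M` (`M ≠ 0`) there is `t` with
`a + t c` a unit. -/
theorem exists_isUnit_add_mul (M : ℕ) [NeZero M] (a b c d : ZMod M) (h : a * d - b * c = 1) :
    ∃ t : ZMod M, IsUnit (a + t * c) := by
  classical
  -- no prime factor of `M` divides both `a.val` and `c.val`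
  have hnot : ∀ p : ℕ, p.Prime → p ∣ M → p ∣ a.val → p ∣ c.val → False := by
    intro p hp hpM hpa hpc
    have : Fact p.Prime := ⟨hp⟩
    have ha : ZMod.castHom hpM (ZMod p) a = 0 := by
      rw [ZMod.castHom_apply, ← ZMod.natCast_val, ZMod.natCast_eq_zero_iff]; exact hpa
    have hc : ZMod.castHom hpM (ZMod p) c = 0 := by
      rw [ZMod.castHom_apply, ← ZMod.natCast_val, ZMod.natCast_eq_zero_iff]; exact hpc
    have := congrArg (ZMod.castHom hpM (ZMod p)) h
    simp only [map_sub, map_mul, ha, hc, map_one, zero_mul, mul_zero, sub_zero] at this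
    exact zero_ne_one this
  set T : ℕ := ∏ p ∈ M.primeFactors.filter (fun p => ¬ p ∣ a.val), p with hT
  refine ⟨(T : ZMod M), ?_⟩
  have hcop : Nat.Coprime (a.val + T * c.val) M := by
    apply Nat.Coprime.symm
    apply Nat.coprime_of_dvd
    intro p hp hpM hpsum
    by_cases hpa : p ∣ a.val
    · -- `p ∣ a`, so `p ∤ c` and `p ∤ T`
      have hpTc : p ∣ T * c.val := (Nat.dvd_add_right hpa).mp hpsum
      rcases (Nat.Prime.dvd_mul hp).mp hpTc with hpT | hpc
      · rw [hT] at hpT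
        obtain ⟨q, hq, hpq⟩ := (Prime.dvd_finsetProd_iff (Nat.Prime.prime hp) _).mp hpT
        rw [Finset.mem_filter, Nat.mem_primeFactors] at hq
        have : p = q := (Nat.prime_dvd_prime_iff_eq hp hq.1.1).mp hpq
        exact hq.2 (this ▸ hpa)
      · exact hnot p hp hpM hpa hpc
    · -- `p ∤ a`, so `p ∣ T`
      have hpT : p ∣ T := by
        rw [hT]
        apply Finset.dvd_prod_of_mem
        rw [Finset.mem_filter, Nat.mem_primeFactors]
        exact ⟨⟨hp, hpM, NeZero.ne M⟩, hpa⟩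
      exact hpa ((Nat.dvd_add_left (Dvd.dvd.mul_right hpT _)).mp hpsum)
  have := (ZMod.isUnit_iff_coprime (a.val + T * c.val) M).mpr hcop
  simpa using this

/-- `SL₂(ℤ/M)` is generated by elementary matrices (`M ≠ 0`). -/
theorem elemSubgroup_zmod_eq_top (M : ℕ) [NeZero M] : elemSubgroup (ZMod M) = ⊤ := by
  rw [eq_top_iff]
  intro g _
  apply mem_elemSubgroup_of_exists
  exact exists_isUnit_add_mul M (g 0 0) (g 0 1) (g 1 0) (g 1 1) (sl2_det_eq g)

/-- `SL₂(ℤ)` is generated by elementary matrices (from Mathlib's `SL2Z_generators`). -/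
theorem elemSubgroup_int_eq_top : elemSubgroup ℤ = ⊤ := by
  rw [eq_top_iff, ← _root_.SpecialLinearGroup.SL2Z_generators, Subgroup.closure_le]
  intro g hg
  rcases hg with rfl | hg
  · have : ModularGroup.S = weylW ℤ := by
      apply Subtype.ext
      rw [coe_weylW]
      rfl
    rw [this]
    exact weylW_mem
  · rw [Set.mem_singleton_iff] at hg
    have : ModularGroup.T = upperU (1 : ℤ) := by
      apply Subtype.ext
      rw [coe_upperU]
      rfl
    rw [hg, this]
    exact upperU_mem 1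

end ZMod

section Abstract

variable {G : Type*} [Group G]

/-- If `G = D·B`, `U ≤ D` and `B` normalises `U`, then every conjugate of an element of `U` lies
in `D`. -/
theorem conj_mem_of_mul (D B U : Subgroup G) (hDB : ∀ g : G, ∃ d ∈ D, ∃ b ∈ B, g = d * b)
    (hUD : U ≤ D) (hBU : ∀ b ∈ B, ∀ u ∈ U, b * u * b⁻¹ ∈ U) (g u : G) (hu : u ∈ U) :
    g * u * g⁻¹ ∈ D := by
  obtain ⟨d, hd, b, hb, rfl⟩ := hDB g
  have : d * b * u * (d * b)⁻¹ = d * (b * u * b⁻¹) * d⁻¹ := by group
  rw [this]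
  exact mul_mem (mul_mem hd (hUD (hBU b hb u hu))) (inv_mem hd)

/-- If `G = D·B`, `U ≤ D` and `B` normalises `U`, then the normal closure of `U` lies in `D`. -/
theorem normalClosure_le_of_mul (D B U : Subgroup G)
    (hDB : ∀ g : G, ∃ d ∈ D, ∃ b ∈ B, g = d * b)
    (hUD : U ≤ D) (hBU : ∀ b ∈ B, ∀ u ∈ U, b * u * b⁻¹ ∈ U) :
    Subgroup.normalClosure (U : Set G) ≤ D := by
  rw [Subgroup.normalClosure, Subgroup.closure_le]
  intro x hx
  rw [Group.mem_conjugatesOfSet_iff] at hx
  obtain ⟨u, hu, hc⟩ := hx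
  rw [isConj_iff] at hc
  obtain ⟨c, rfl⟩ := hc
  exact conj_mem_of_mul D B U hDB hUD hBU c u hu

/-- **Memo IGUSA1 §2 (d).**  If `N` is a normal subgroup contained in `D` and `G = H·N`, then
`G = D·H` (so `D` acts transitively on `G/H`: a single double coset `D \ G / H`). -/
theorem exists_mul_of_normal_le (D H N : Subgroup G) [N.Normal] (hND : N ≤ D)
    (hHN : ∀ g : G, ∃ h ∈ H, ∃ n ∈ N, g = h * n) (g : G) :
    ∃ d ∈ D, ∃ h ∈ H, g = d * h := by
  obtain ⟨h, hh, n, hn, rfl⟩ := hHN g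
  refine ⟨h * n * h⁻¹, hND (Subgroup.Normal.conj_mem inferInstance n hn h), h, hh, ?_⟩
  group

/-- Variant of `exists_mul_of_normal_le` with `G = N·H`. -/
theorem exists_mul_of_normal_le' (D H N : Subgroup G) (hND : N ≤ D)
    (hNH : ∀ g : G, ∃ n ∈ N, ∃ h ∈ H, g = n * h) (g : G) :
    ∃ d ∈ D, ∃ h ∈ H, g = d * h := by
  obtain ⟨n, hn, h, hh, rfl⟩ := hNH g
  exact ⟨n, hND hn, h, hh, rfl⟩

end Abstract

section Decomposition

variable {G : Type*} [Group G]

/-- **Memo IGUSA1 §2 (c), general ring.**  Let `ι : SL₂(R) → G`, `G = D·B`, `ι(upperU t) ∈ D` for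
all `t`, and suppose `B` normalises `ι(U)`.  Then `ι` maps the elementary subgroup into `D`. -/
theorem map_elemSubgroup_le_of_mul {R : Type*} [CommRing R]
    (ι : Matrix.SpecialLinearGroup (Fin 2) R →* G) (D B : Subgroup G)
    (hDB : ∀ g : G, ∃ d ∈ D, ∃ b ∈ B, g = d * b)
    (hU : ∀ t : R, ι (upperU t) ∈ D)
    (hB : ∀ b ∈ B, ∀ t : R, ∃ s : R, b * ι (upperU t) * b⁻¹ = ι (upperU s)) :
    (elemSubgroup R).map ι ≤ D := by
  rw [Subgroup.map_le_iff_le_comap, elemSubgroup, Subgroup.closure_le]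
  rintro g (⟨t, rfl⟩ | ⟨t, rfl⟩)
  · exact hU t
  · rw [SetLike.mem_coe, Subgroup.mem_comap, lowerU_eq_conj, map_mul, map_mul, map_inv]
    obtain ⟨d, hd, b, hb, hdb⟩ := hDB (ι (weylW R))
    obtain ⟨s, hs⟩ := hB b hb (-t)
    have : ι (weylW R) * ι (upperU (-t)) * (ι (weylW R))⁻¹ = d * ι (upperU s) * d⁻¹ := by
      rw [hdb, ← hs]; group
    rw [this]
    exact mul_mem (mul_mem hd (hU s)) (inv_mem hd)

/-- **Memo IGUSA1 §2 (c).**  Let `ι : SL₂(ℤ/M) → G` (`M ≠ 0`), `G = D·B`, `ι(U) ≤ D` for the upper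
unitriangular group `U`, and suppose `B` normalises `ι(U)`.  Then `ι(SL₂(ℤ/M)) ≤ D`. -/
theorem map_sl2_le_of_mul (M : ℕ) [NeZero M]
    (ι : Matrix.SpecialLinearGroup (Fin 2) (ZMod M) →* G) (D B : Subgroup G)
    (hDB : ∀ g : G, ∃ d ∈ D, ∃ b ∈ B, g = d * b)
    (hU : ∀ t : ZMod M, ι (upperU t) ∈ D)
    (hB : ∀ b ∈ B, ∀ t : ZMod M, ∃ s : ZMod M, b * ι (upperU t) * b⁻¹ = ι (upperU s)) :
    ι.range ≤ D := by
  have := map_elemSubgroup_le_of_mul ι D B hDB hU hB
  rwa [elemSubgroup_zmod_eq_top, ← MonoidHom.range_eq_map] at this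

/-- **Memo IGUSA1 §2 (c)+(d).**  In the situation of `map_sl2_le_of_mul`, if moreover
`G = ι(SL₂(ℤ/M))·H`, then `G = D·H`. -/
theorem exists_mul_of_sl2 (M : ℕ) [NeZero M]
    (ι : Matrix.SpecialLinearGroup (Fin 2) (ZMod M) →* G) (D B H : Subgroup G)
    (hDB : ∀ g : G, ∃ d ∈ D, ∃ b ∈ B, g = d * b)
    (hU : ∀ t : ZMod M, ι (upperU t) ∈ D)
    (hB : ∀ b ∈ B, ∀ t : ZMod M, ∃ s : ZMod M, b * ι (upperU t) * b⁻¹ = ι (upperU s))
    (hH : ∀ g : G, ∃ s : Matrix.SpecialLinearGroup (Fin 2) (ZMod M), ∃ h ∈ H, g = ι s * h)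
    (g : G) : ∃ d ∈ D, ∃ h ∈ H, g = d * h := by
  obtain ⟨s, h, hh, rfl⟩ := hH g
  exact ⟨ι s, map_sl2_le_of_mul M ι D B hDB hU hB ⟨s, rfl⟩, h, hh, rfl⟩

end Decomposition

section Scalar

variable {R : Type*} [CommRing R]

/-- **Memo IGUSA1 §2 (e).**  A `2 × 2` matrix all of whose conjugates by elementary matrices
are upper triangular is scalar. -/
theorem eq_scalar_of_conj_upper (A : Matrix (Fin 2) (Fin 2) R)
    (h : ∀ s : Matrix.SpecialLinearGroup (Fin 2) R, s ∈ elemSubgroup R →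
      ((s : Matrix (Fin 2) (Fin 2) R) * A * ((s⁻¹ : Matrix.SpecialLinearGroup (Fin 2) R) :
        Matrix (Fin 2) (Fin 2) R)) 1 0 = 0) :
    A = Matrix.scalar (Fin 2) (A 0 0) := by
  have h1 := h 1 (one_mem _)
  have h2 := h (weylW R) weylW_mem
  have h3 := h (lowerU 1) (lowerU_mem 1)
  have ew : (((weylW R)⁻¹ : Matrix.SpecialLinearGroup (Fin 2) R) :
      Matrix (Fin 2) (Fin 2) R) = !![0, 1; -1, 0] := by
    rw [Matrix.SpecialLinearGroup.coe_inv, coe_weylW, Matrix.adjugate_fin_two]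
    simp
  have el : (((lowerU (1 : R))⁻¹ : Matrix.SpecialLinearGroup (Fin 2) R) :
      Matrix (Fin 2) (Fin 2) R) = !![1, 0; -1, 1] := by
    rw [Matrix.SpecialLinearGroup.coe_inv, coe_lowerU, Matrix.adjugate_fin_two]
    simp
  rw [ew, coe_weylW] at h2
  rw [el, coe_lowerU] at h3
  rw [Matrix.SpecialLinearGroup.coe_one, inv_one, Matrix.SpecialLinearGroup.coe_one, one_mul,
    mul_one] at h1
  have e2 : ((!![0, -1; 1, 0] : Matrix (Fin 2) (Fin 2) R) * A *
      (!![0, 1; -1, 0] : Matrix (Fin 2) (Fin 2) R)) 1 0 = -(A 0 1) := by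
    simp [Matrix.mul_apply, Fin.sum_univ_two, Matrix.vecMul, dotProduct]
  have e3 : ((!![1, 0; 1, 1] : Matrix (Fin 2) (Fin 2) R) * A *
      (!![1, 0; -1, 1] : Matrix (Fin 2) (Fin 2) R)) 1 0 =
      A 0 0 + A 1 0 - A 0 1 - A 1 1 := by
    simp [Matrix.mul_apply, Fin.sum_univ_two, Matrix.vecMul, dotProduct]
    ring
  rw [e2, neg_eq_zero] at h2
  rw [e3, h1, h2] at h3
  have h4 : A 1 1 = A 0 0 := by linear_combination -h3
  ext i j
  fin_cases i <;> fin_cases j
  · simp
  · simpa using h2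
  · simpa using h1
  · simpa using h4

/-- **The Borel subgroup normalises the unipotent radical.**  For an upper triangular
`b ∈ GL₂(R)` one has `b (1 t; 0 1) b⁻¹ = (1 s; 0 1)` with `s = b₀₀² t / det b`. -/
theorem exists_conj_upperU (b : GL (Fin 2) R) (hb : (b : Matrix (Fin 2) (Fin 2) R) 1 0 = 0)
    (t : R) :
    ∃ s : R, b * Matrix.SpecialLinearGroup.toGL (upperU t) * b⁻¹ =
      Matrix.SpecialLinearGroup.toGL (upperU s) := by
  set δ : Rˣ := Matrix.GeneralLinearGroup.det b with hδ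
  have hdet : (b : Matrix (Fin 2) (Fin 2) R) 0 0 * (b : Matrix (Fin 2) (Fin 2) R) 1 1 =
      (δ : R) := by
    have : (δ : R) = (b : Matrix (Fin 2) (Fin 2) R).det := rfl
    rw [this, Matrix.det_fin_two, hb, mul_zero, sub_zero]
  have hδ' : (δ : R) * (↑δ⁻¹ : R) = 1 := by simp
  refine ⟨(b : Matrix (Fin 2) (Fin 2) R) 0 0 * t *
    ((b : Matrix (Fin 2) (Fin 2) R) 0 0 * (↑δ⁻¹ : R)), ?_⟩
  rw [mul_inv_eq_iff_eq_mul]
  apply Units.ext
  rw [Units.val_mul, Units.val_mul]
  simp only [Matrix.SpecialLinearGroup.coe_GL_coe_matrix, coe_upperU]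
  ext i j
  fin_cases i <;> fin_cases j
  · simp [Matrix.mul_apply, Fin.sum_univ_two, hb]
  · simp [Matrix.mul_apply, Fin.sum_univ_two]
    linear_combination -((b : Matrix (Fin 2) (Fin 2) R) 0 0 * t) * hδ' -
      ((b : Matrix (Fin 2) (Fin 2) R) 0 0 * t * (↑δ⁻¹ : R)) * hdet
  · simp [Matrix.mul_apply, Fin.sum_univ_two]
  · simp [Matrix.mul_apply, Fin.sum_univ_two, hb]

end Scalar

end Fermat.Agent.S48.H368
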