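import Fermat.Agent.S48.H368.IGrp

/-!
# S48 / Tower A1 / node I-GRP, part 2 (helper368): the normal closure of `T`

The hypothesis `hgen : Subgroup.normalClosure {t} = ⊤` of `H856.igusa_qep` /
`H856.eq_top_of_normalClosure_of_mul`:

* `normalClosure_upperU_one_zmod` : the normal closure of `T = (1 1; 0 1)` in `SL₂(ℤ/M)` is
  everything (`M ≠ 0`);
* `normalClosure_upperU_one_int`, `normalClosure_T` : the same in `SL₂(ℤ)`;
* `normalClosure_map_of_surjective` : normal closures of singletons push forward along
  surjections; `normalClosure_map_T`, `normalClosure_map_upperU_zmod` : the images of `T` in any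
  quotient of `SL₂(ℤ)`, `SL₂(ℤ/M)` normally generate.
-/

set_option autoImplicit false

namespace Fermat.Agent.S48.H368

open Matrix

section General

variable {R : Type*} [CommRing R]

theorem upperU_nsmul (n : ℕ) (t : R) : upperU (n • t) = upperU t ^ n := by
  induction n with
  | zero => simp [upperU_zero]
  | succ n ih => rw [succ_nsmul, upperU_add, ih, pow_succ]

theorem upperU_zsmul (n : ℤ) (t : R) : upperU (n • t) = upperU t ^ n := by
  cases n with
  | ofNat n => simpa using upperU_nsmul n t
  | negSucc n =>
    rw [negSucc_zsmul, upperU_neg, upperU_nsmul, zpow_negSucc]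

/-- If every `upperU t` is a power of `upperU 1`, the normal closure of `upperU 1` contains the
elementary subgroup. -/
theorem elemSubgroup_le_normalClosure
    (h : ∀ t : R, upperU t ∈ Subgroup.zpowers (upperU (1 : R))) :
    elemSubgroup R ≤ Subgroup.normalClosure ({upperU (1 : R)} : Set _) := by
  have hz : Subgroup.zpowers (upperU (1 : R)) ≤
      Subgroup.normalClosure ({upperU (1 : R)} : Set _) := by
    rw [Subgroup.zpowers_le]
    exact Subgroup.subset_normalClosure (Set.mem_singleton _)
  rw [elemSubgroup, Subgroup.closure_le]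
  rintro g (⟨t, rfl⟩ | ⟨t, rfl⟩)
  · exact hz (h t)
  · rw [lowerU_eq_conj]
    exact Subgroup.Normal.conj_mem inferInstance _ (hz (h (-t))) _

end General

/-- The normal closure of `T = (1 1; 0 1)` in `SL₂(ℤ/M)` is the whole group (`M ≠ 0`). -/
theorem normalClosure_upperU_one_zmod (M : ℕ) [NeZero M] :
    Subgroup.normalClosure ({upperU (1 : ZMod M)} : Set _) = ⊤ := by
  rw [eq_top_iff, ← elemSubgroup_zmod_eq_top M]
  apply elemSubgroup_le_normalClosure
  intro t
  refine ⟨(t.val : ℤ), ?_⟩
  change upperU (1 : ZMod M) ^ (t.val : ℤ) = upperU t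
  rw [← upperU_zsmul]
  congr 1
  simp

/-- The normal closure of `T = (1 1; 0 1)` in `SL₂(ℤ)` is the whole group. -/
theorem normalClosure_upperU_one_int :
    Subgroup.normalClosure ({upperU (1 : ℤ)} : Set _) = ⊤ := by
  rw [eq_top_iff, ← elemSubgroup_int_eq_top]
  apply elemSubgroup_le_normalClosure
  intro t
  refine ⟨t, ?_⟩
  change upperU (1 : ℤ) ^ t = upperU t
  rw [← upperU_zsmul]
  congr 1
  simp

theorem modularGroup_T_eq : ModularGroup.T = upperU (1 : ℤ) := by
  apply Subtype.ext
  rw [coe_upperU]
  rfl

/-- The normal closure of Mathlib's `ModularGroup.T` in `SL₂(ℤ)` is the whole group. -/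
theorem normalClosure_T :
    Subgroup.normalClosure ({ModularGroup.T} : Set (Matrix.SpecialLinearGroup (Fin 2) ℤ)) = ⊤ := by
  rw [modularGroup_T_eq]
  exact normalClosure_upperU_one_int

/-- Normal generation pushes forward along surjections. -/
theorem normalClosure_map_of_surjective {H G : Type*} [Group H] [Group G] (π : H →* G)
    (hπ : Function.Surjective π) (t : H)
    (ht : Subgroup.normalClosure ({t} : Set H) = ⊤) :
    Subgroup.normalClosure ({π t} : Set G) = ⊤ := by
  rw [eq_top_iff]
  have h1 : Subgroup.normalClosure ({t} : Set H) ≤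
      (Subgroup.normalClosure ({π t} : Set G)).comap π := by
    apply Subgroup.normalClosure_le_normal
    intro x hx
    rw [Set.mem_singleton_iff] at hx
    subst hx
    exact Subgroup.subset_normalClosure (Set.mem_singleton _)
  intro g _
  obtain ⟨h, rfl⟩ := hπ g
  exact h1 (ht ▸ Subgroup.mem_top h)

/-- The image of `T` normally generates every quotient of `SL₂(ℤ)`. -/
theorem normalClosure_map_T {G : Type*} [Group G]
    (π : Matrix.SpecialLinearGroup (Fin 2) ℤ →* G) (hπ : Function.Surjective π) :
    Subgroup.normalClosure ({π ModularGroup.T} : Set G) = ⊤ :=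
  normalClosure_map_of_surjective π hπ _ normalClosure_T

/-- The image of `T` normally generates every quotient of `SL₂(ℤ/M)` (`M ≠ 0`). -/
theorem normalClosure_map_upperU_zmod (M : ℕ) [NeZero M] {G : Type*} [Group G]
    (π : Matrix.SpecialLinearGroup (Fin 2) (ZMod M) →* G) (hπ : Function.Surjective π) :
    Subgroup.normalClosure ({π (upperU (1 : ZMod M))} : Set G) = ⊤ :=
  normalClosure_map_of_surjective π hπ _ (normalClosure_upperU_one_zmod M)

/-- The image of `T` normally generates the range of any homomorphism from `SL₂(ℤ)`. -/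
theorem normalClosure_rangeRestrict_T {G : Type*} [Group G]
    (π : Matrix.SpecialLinearGroup (Fin 2) ℤ →* G) :
    Subgroup.normalClosure ({π.rangeRestrict ModularGroup.T} : Set π.range) = ⊤ :=
  normalClosure_map_T π.rangeRestrict π.rangeRestrict_surjective

end Fermat.Agent.S48.H368
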