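import Mathlib

/-!
# Row S48 (Deligne–Serre), piece LIFT (helper368)

Lifting representations of a finite group `G` along a surjection `π : 𝒪 → k` of commutative
rings, when `𝒪` is complete for `ker π` and `|G|` is invertible in `𝒪`:

`exists_lift_monoidHom`: every `ρ̄ : G →* GL d k` lifts to `ρ : G →* GL d 𝒪`.

Proof: Newton iteration by averaging.  For a map `r : G → M_d(𝒪)` which is multiplicative modulo
`𝔞`, the map `r'(g) = r(g) + |G|⁻¹ ∑_h (r(gh) - r(g) r(h)) r(h⁻¹)` is congruent to `r` modulo `𝔞`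
and multiplicative modulo `𝔞²`.
-/

set_option autoImplicit false

namespace Fermat.Agent.S48.H368

open Matrix

section MatIn

variable {R : Type*} [CommRing R] {d : Type*} [Fintype d] [DecidableEq d]

/-- The matrices all of whose entries lie in the ideal `𝔞`. -/
def matIn (d : Type*) [Fintype d] [DecidableEq d] (𝔞 : Ideal R) : Submodule R (Matrix d d R) where
  carrier := {x | ∀ i j, x i j ∈ 𝔞}
  add_mem' := fun hx hy i j => 𝔞.add_mem (hx i j) (hy i j)
  zero_mem' := fun _ _ => 𝔞.zero_mem
  smul_mem' := fun c _ hx i j => 𝔞.mul_mem_left c (hx i j)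

theorem mem_matIn {𝔞 : Ideal R} {x : Matrix d d R} : x ∈ matIn d 𝔞 ↔ ∀ i j, x i j ∈ 𝔞 :=
  Iff.rfl

theorem matIn_mono {𝔞 𝔟 : Ideal R} (h : 𝔞 ≤ 𝔟) : matIn d 𝔞 ≤ matIn d 𝔟 :=
  fun _ hx i j => h (hx i j)

theorem mul_mem_matIn {𝔞 𝔟 : Ideal R} {x y : Matrix d d R} (hx : x ∈ matIn d 𝔞)
    (hy : y ∈ matIn d 𝔟) : x * y ∈ matIn d (𝔞 * 𝔟) := by
  intro i j
  rw [Matrix.mul_apply]
  exact Ideal.sum_mem _ fun k _ => Ideal.mul_mem_mul (hx i k) (hy k j)

theorem mul_mem_matIn_left {𝔞 : Ideal R} (y : Matrix d d R) {x : Matrix d d R}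
    (hx : x ∈ matIn d 𝔞) : y * x ∈ matIn d 𝔞 := by
  intro i j
  rw [Matrix.mul_apply]
  exact Ideal.sum_mem _ fun k _ => 𝔞.mul_mem_left _ (hx k j)

theorem mul_mem_matIn_right {𝔞 : Ideal R} (y : Matrix d d R) {x : Matrix d d R}
    (hx : x ∈ matIn d 𝔞) : x * y ∈ matIn d 𝔞 := by
  intro i j
  rw [Matrix.mul_apply]
  exact Ideal.sum_mem _ fun k _ => 𝔞.mul_mem_right _ (hx i k)

end MatIn

section Newton

variable {R : Type*} [CommRing R] {d : Type*} [Fintype d] [DecidableEq d]
variable {G : Type*} [Group G] [Fintype G]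

/-- The multiplicativity defect of `r`. -/
def defect (r : G → Matrix d d R) (g h : G) : Matrix d d R := r (g * h) - r g * r h

/-- The correction term of the Newton step. -/
def corr (c : R) (r : G → Matrix d d R) (g : G) : Matrix d d R :=
  c • ∑ h : G, defect r g h * r h⁻¹

/-- The Newton step. -/
def newtonStep (c : R) (r : G → Matrix d d R) (g : G) : Matrix d d R := r g + corr c r g

theorem corr_mem {𝔞 : Ideal R} (c : R) (r : G → Matrix d d R)
    (hr : ∀ g h, defect r g h ∈ matIn d 𝔞) (g : G) : corr c r g ∈ matIn d 𝔞 :=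
  Submodule.smul_mem _ _ (Submodule.sum_mem _ fun h _ => mul_mem_matIn_right _ (hr g h))

omit [Fintype d] [DecidableEq d] [Group G] in
/-- Averaging a constant. -/
theorem avg_const {c : R} (hc : c * (Fintype.card G : R) = 1) (x : Matrix d d R) :
    c • ∑ _h : G, x = x := by
  rw [Finset.sum_const, Finset.card_univ, ← Nat.cast_smul_eq_nsmul R, smul_smul, hc, one_smul]

omit [Fintype G] in
/-- The pointwise identity behind the Newton step (a consequence of associativity). -/
theorem newton_term_eq (r : G → Matrix d d R) (g k h : G) :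
    defect r g k + defect r (g * k) h * r h⁻¹ - r g * (defect r k h * r h⁻¹)
        - defect r g (k * h) * r (k * h)⁻¹ * r k
      = defect r g k * (defect r h h⁻¹ - (r 1 - 1))
        + defect r g (k * h) * defect r (k * h)⁻¹ k := by
  have h1 : (k * h)⁻¹ * k = h⁻¹ := by group
  simp only [defect, mul_inv_cancel, h1, mul_assoc g k h]
  noncomm_ring

omit [Fintype G] in
theorem newton_term_mem {𝔞 : Ideal R} (r : G → Matrix d d R)
    (hr : ∀ g h, defect r g h ∈ matIn d 𝔞) (h1 : r 1 - 1 ∈ matIn d 𝔞) (g k h : G) :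
    defect r g k + defect r (g * k) h * r h⁻¹ - r g * (defect r k h * r h⁻¹)
        - defect r g (k * h) * r (k * h)⁻¹ * r k ∈ matIn d (𝔞 * 𝔞) := by
  rw [newton_term_eq]
  exact Submodule.add_mem _ (mul_mem_matIn (hr g k) (Submodule.sub_mem _ (hr _ _) h1))
    (mul_mem_matIn (hr _ _) (hr _ _))

/-- The Newton step squares the precision of multiplicativity. -/
theorem defect_newtonStep_mem {𝔞 : Ideal R} {c : R} (hc : c * (Fintype.card G : R) = 1)
    (r : G → Matrix d d R) (hr : ∀ g h, defect r g h ∈ matIn d 𝔞) (h1 : r 1 - 1 ∈ matIn d 𝔞)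
    (g k : G) : defect (newtonStep c r) g k ∈ matIn d (𝔞 * 𝔞) := by
  have hX : defect r g k + corr c r (g * k) - r g * corr c r k - corr c r g * r k
      = c • ∑ h : G, (defect r g k + defect r (g * k) h * r h⁻¹ - r g * (defect r k h * r h⁻¹)
        - defect r g (k * h) * r (k * h)⁻¹ * r k) := by
    have e1 : (∑ h : G, defect r g h * r h⁻¹) * r k
        = ∑ h : G, defect r g (k * h) * r (k * h)⁻¹ * r k := by
      rw [Finset.sum_mul]
      exact (Equiv.sum_comp (Equiv.mulLeft k)
        (fun h => defect r g h * r h⁻¹ * r k)).symm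
    simp only [Finset.sum_sub_distrib, Finset.sum_add_distrib, smul_sub, smul_add,
      avg_const hc, corr, ← Finset.mul_sum, Matrix.mul_smul, Matrix.smul_mul, e1]
  have hsplit : defect (newtonStep c r) g k
      = (defect r g k + corr c r (g * k) - r g * corr c r k - corr c r g * r k)
        - corr c r g * corr c r k := by
    simp only [defect, newtonStep]
    noncomm_ring
  rw [hsplit, hX]
  refine Submodule.sub_mem _ (Submodule.smul_mem _ _ (Submodule.sum_mem _ fun h _ => ?_))
    (mul_mem_matIn (corr_mem c r hr g) (corr_mem c r hr k))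
  exact newton_term_mem r hr h1 g k h

/-- The Newton step squares the precision of `r 1 = 1`. -/
theorem newtonStep_one_mem {𝔞 : Ideal R} {c : R} (hc : c * (Fintype.card G : R) = 1)
    (r : G → Matrix d d R) (hr : ∀ g h, defect r g h ∈ matIn d 𝔞) (h1 : r 1 - 1 ∈ matIn d 𝔞) :
    newtonStep c r 1 - 1 ∈ matIn d (𝔞 * 𝔞) := by
  have hX : newtonStep c r (1 : G) - 1
      = c • ∑ h : G, (r 1 - 1) * (defect r h h⁻¹ - (r 1 - 1)) := by
    have e2 : ∀ h : G, (r 1 - 1) * (defect r h h⁻¹ - (r 1 - 1))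
        = (r 1 - 1) + defect r 1 h * r h⁻¹ := by
      intro h
      simp only [defect, mul_inv_cancel, one_mul]
      noncomm_ring
    simp only [e2, Finset.sum_add_distrib, smul_add, avg_const hc, newtonStep, corr]
    abel
  rw [hX]
  exact Submodule.smul_mem _ _ (Submodule.sum_mem _ fun h _ =>
    mul_mem_matIn h1 (Submodule.sub_mem _ (hr _ _) h1))

/-- The sequence of Newton approximations. -/
def approx (c : R) (r₀ : G → Matrix d d R) : ℕ → G → Matrix d d R
  | 0 => r₀
  | n + 1 => newtonStep c (approx c r₀ n)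

theorem approx_spec (I : Ideal R) {c : R} (hc : c * (Fintype.card G : R) = 1)
    (r₀ : G → Matrix d d R) (hr : ∀ g h, defect r₀ g h ∈ matIn d I) (h1 : r₀ 1 - 1 ∈ matIn d I)
    (n : ℕ) :
    (∀ g h, defect (approx c r₀ n) g h ∈ matIn d (I ^ (n + 1))) ∧
      approx c r₀ n 1 - 1 ∈ matIn d (I ^ (n + 1)) := by
  induction n with
  | zero => simpa [approx] using And.intro hr h1
  | succ n ih =>
    have hle : I ^ (n + 1) * I ^ (n + 1) ≤ I ^ (n + 1 + 1) := by
      rw [← pow_add]
      exact Ideal.pow_le_pow_right (by omega)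
    exact ⟨fun g h => matIn_mono hle (defect_newtonStep_mem hc _ ih.1 ih.2 g h),
      matIn_mono hle (newtonStep_one_mem hc _ ih.1 ih.2)⟩

theorem approx_succ_sub (I : Ideal R) {c : R} (hc : c * (Fintype.card G : R) = 1)
    (r₀ : G → Matrix d d R) (hr : ∀ g h, defect r₀ g h ∈ matIn d I) (h1 : r₀ 1 - 1 ∈ matIn d I)
    (n : ℕ) (g : G) : approx c r₀ (n + 1) g - approx c r₀ n g ∈ matIn d (I ^ (n + 1)) := by
  have : approx c r₀ (n + 1) g - approx c r₀ n g = corr c (approx c r₀ n) g := by
    simp [approx, newtonStep]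
  rw [this]
  exact corr_mem c _ (approx_spec I hc r₀ hr h1 n).1 g

theorem approx_sub_of_le (I : Ideal R) {c : R} (hc : c * (Fintype.card G : R) = 1)
    (r₀ : G → Matrix d d R) (hr : ∀ g h, defect r₀ g h ∈ matIn d I) (h1 : r₀ 1 - 1 ∈ matIn d I)
    {m n : ℕ} (hmn : m ≤ n) (g : G) :
    approx c r₀ n g - approx c r₀ m g ∈ matIn d (I ^ m) := by
  induction n, hmn using Nat.le_induction with
  | base => simp
  | succ n hmn ih =>
    have h2 := matIn_mono (d := d) (Ideal.pow_le_pow_right (I := I) (show m ≤ n + 1 by omega))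
      (approx_succ_sub I hc r₀ hr h1 n g)
    have := Submodule.add_mem _ h2 ih
    simpa using this

end Newton

section Limit

variable {R : Type*} [CommRing R] {d : Type*} [Fintype d] [DecidableEq d]
variable {G : Type*} [Group G] [Fintype G]

theorem smodEq_pow_iff (I : Ideal R) (n : ℕ) (x y : R) :
    x ≡ y [SMOD (I ^ n • ⊤ : Submodule R R)] ↔ x - y ∈ I ^ n := by
  rw [SModEq.sub_mem, smul_eq_mul, Ideal.mul_top]

/-- A matrix with entries in all powers of `I` is zero when `R` is `I`-adically separated. -/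
theorem eq_zero_of_forall_mem_matIn (I : Ideal R) [IsHausdorff I R] (x : Matrix d d R)
    (hx : ∀ n, x ∈ matIn d (I ^ n)) : x = 0 := by
  ext i j
  refine IsHausdorff.haus ‹_› (x i j) fun n => ?_
  rw [smodEq_pow_iff, sub_zero]
  exact hx n i j

/-- The limit of the Newton approximations. -/
theorem exists_limit (I : Ideal R) [IsAdicComplete I R] {c : R}
    (hc : c * (Fintype.card G : R) = 1) (r₀ : G → Matrix d d R)
    (hr : ∀ g h, defect r₀ g h ∈ matIn d I) (h1 : r₀ 1 - 1 ∈ matIn d I) :
    ∃ ρ : G → Matrix d d R, ∀ n g, ρ g - approx c r₀ n g ∈ matIn d (I ^ n) := by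
  have hex : ∀ (g : G) (i j : d), ∃ L : R, ∀ n, approx c r₀ n g i j ≡ L
      [SMOD (I ^ n • ⊤ : Submodule R R)] := by
    intro g i j
    refine IsPrecomplete.prec (I := I) (M := R) inferInstance ?_
    intro m n hmn
    rw [smodEq_pow_iff]
    have := approx_sub_of_le I hc r₀ hr h1 hmn g i j
    rw [Matrix.sub_apply] at this
    rw [← neg_sub]
    exact (I ^ m).neg_mem this
  choose L hL using hex
  refine ⟨fun g => Matrix.of fun i j => L g i j, fun n g i j => ?_⟩
  have := hL g i j n
  rw [smodEq_pow_iff] at this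
  change L g i j - approx c r₀ n g i j ∈ I ^ n
  rw [← neg_sub]
  exact (I ^ n).neg_mem this

/-- **Lifting a multiplicative map**: if `r₀ : G → M_d(R)` is multiplicative modulo `I`, `R` is
`I`-adically complete and `|G|` is invertible in `R`, there is a monoid homomorphism
`ρ : G →* M_d(R)` congruent to `r₀` modulo `I`. -/
theorem exists_monoidHom_of_defect (I : Ideal R) [IsAdicComplete I R] {c : R}
    (hc : c * (Fintype.card G : R) = 1) (r₀ : G → Matrix d d R)
    (hr : ∀ g h, defect r₀ g h ∈ matIn d I) (h1 : r₀ 1 - 1 ∈ matIn d I) :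
    ∃ ρ : G →* Matrix d d R, ∀ g, ρ g - r₀ g ∈ matIn d I := by
  obtain ⟨ρ, hρ⟩ := exists_limit I hc r₀ hr h1
  have hone : ρ 1 = 1 := by
    rw [← sub_eq_zero]
    refine eq_zero_of_forall_mem_matIn I _ fun n => ?_
    have h2 := matIn_mono (d := d) (Ideal.pow_le_pow_right (I := I) (show n ≤ n + 1 by omega))
      (approx_spec I hc r₀ hr h1 n).2
    have := Submodule.add_mem _ (hρ n 1) h2
    simpa using this
  have hmul : ∀ g h, ρ (g * h) = ρ g * ρ h := by
    intro g h
    rw [← sub_eq_zero]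
    refine eq_zero_of_forall_mem_matIn I _ fun n => ?_
    have h2 := matIn_mono (d := d) (Ideal.pow_le_pow_right (I := I) (show n ≤ n + 1 by omega))
      ((approx_spec I hc r₀ hr h1 n).1 g h)
    have h3 : ρ (g * h) - ρ g * ρ h
        = (ρ (g * h) - approx c r₀ n (g * h)) + defect (approx c r₀ n) g h
          - approx c r₀ n g * (ρ h - approx c r₀ n h)
          - (ρ g - approx c r₀ n g) * ρ h := by
      simp only [defect]
      noncomm_ring
    rw [h3]
    exact Submodule.sub_mem _ (Submodule.sub_mem _ (Submodule.add_mem _ (hρ n _) h2)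
      (mul_mem_matIn_left _ (hρ n h))) (mul_mem_matIn_right _ (hρ n g))
  refine ⟨{ toFun := ρ, map_one' := hone, map_mul' := hmul }, fun g => ?_⟩
  have h4 := hρ 1 g
  rw [pow_one] at h4
  have h5 := approx_succ_sub I hc r₀ hr h1 0 g
  rw [zero_add, pow_one] at h5
  have := Submodule.add_mem _ h4 h5
  simpa [approx] using this

end Limit

section Main

/-- **LIFT (general form).**  Let `π : 𝒪 → k` be a surjection of commutative rings with `𝒪`
complete for `ker π`, and `G` a finite group whose order is invertible in `𝒪`.  Then every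
`ρ̄ : G →* GL d k` lifts to `ρ : G →* GL d 𝒪`. -/
theorem exists_lift_monoidHom {𝒪 k : Type*} [CommRing 𝒪] [CommRing k] (π : 𝒪 →+* k)
    (hπ : Function.Surjective π) [IsAdicComplete (RingHom.ker π) 𝒪]
    {G : Type*} [Group G] [Finite G] (hN : IsUnit ((Nat.card G : ℕ) : 𝒪))
    {d : Type*} [Fintype d] [DecidableEq d] (ρbar : G →* GL d k) :
    ∃ ρ : G →* GL d 𝒪, ∀ g,
      ((ρ g : GL d 𝒪) : Matrix d d 𝒪).map π = ((ρbar g : GL d k) : Matrix d d k) := by
  classical
  have := Fintype.ofFinite G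
  obtain ⟨c, hc⟩ := hN.exists_left_inv
  rw [Nat.card_eq_fintype_card] at hc
  choose s hs using hπ
  let r₀ : G → Matrix d d 𝒪 := fun g => ((ρbar g : GL d k) : Matrix d d k).map s
  have hr₀ : ∀ g, π.mapMatrix (r₀ g) = ((ρbar g : GL d k) : Matrix d d k) := by
    intro g
    ext i j
    simp [r₀, hs]
  have key : ∀ x : Matrix d d 𝒪, π.mapMatrix x = 0 → x ∈ matIn d (RingHom.ker π) := by
    intro x hx i j
    rw [RingHom.mem_ker]
    have := congrFun (congrFun hx i) j
    simpa using this
  have key' : ∀ x : Matrix d d 𝒪, x ∈ matIn d (RingHom.ker π) → π.mapMatrix x = 0 := by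
    intro x hx
    ext i j
    have := hx i j
    rw [RingHom.mem_ker] at this
    simpa using this
  have hdef : ∀ g h, defect r₀ g h ∈ matIn d (RingHom.ker π) := by
    intro g h
    apply key
    simp only [defect]
    rw [map_sub, map_mul, hr₀, hr₀, hr₀, map_mul, Units.val_mul, sub_self]
  have h1 : r₀ 1 - 1 ∈ matIn d (RingHom.ker π) := by
    apply key
    rw [map_sub, hr₀, map_one, map_one, Units.val_one, sub_self]
  obtain ⟨ρ, hρ⟩ := exists_monoidHom_of_defect (RingHom.ker π) hc r₀ hdef h1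
  refine ⟨ρ.toHomUnits, fun g => ?_⟩
  have h2 := key' _ (hρ g)
  rw [map_sub, sub_eq_zero, hr₀] at h2
  exact h2

/-- **LIFT (local form).**  `𝒪` a complete local ring with residue field `k`, `G` a finite group
of order prime to the residue characteristic. -/
theorem exists_lift_of_isLocalRing {𝒪 : Type*} [CommRing 𝒪] [IsLocalRing 𝒪]
    [IsAdicComplete (IsLocalRing.maximalIdeal 𝒪) 𝒪]
    {G : Type*} [Group G] [Finite G]
    (hN : ((Nat.card G : ℕ) : IsLocalRing.ResidueField 𝒪) ≠ 0)
    {d : Type*} [Fintype d] [DecidableEq d] (ρbar : G →* GL d (IsLocalRing.ResidueField 𝒪)) :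
    ∃ ρ : G →* GL d 𝒪, ∀ g,
      ((ρ g : GL d 𝒪) : Matrix d d 𝒪).map (IsLocalRing.residue 𝒪)
        = ((ρbar g : GL d (IsLocalRing.ResidueField 𝒪)) :
            Matrix d d (IsLocalRing.ResidueField 𝒪)) := by
  have hc : IsAdicComplete (RingHom.ker (IsLocalRing.residue 𝒪)) 𝒪 := by
    rw [IsLocalRing.ker_residue]
    infer_instance
  have hunit : IsUnit ((Nat.card G : ℕ) : 𝒪) := by
    by_contra hcon
    apply hN
    have := (IsLocalRing.residue_eq_zero_iff ((Nat.card G : ℕ) : 𝒪)).2
      ((IsLocalRing.mem_maximalIdeal _).2 hcon)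
    simpa using this
  exact exists_lift_monoidHom (IsLocalRing.residue 𝒪) IsLocalRing.residue_surjective hunit ρbar

/-- **LIFT (finite range form).**  A representation `ρ̄ : Γ →* GL d k` of an arbitrary group with
finite image of order prime to the residue characteristic lifts to `ρ : Γ →* GL d 𝒪` with the
same kernel (in particular with finite image). -/
theorem exists_lift_of_finite_range {𝒪 : Type*} [CommRing 𝒪] [IsLocalRing 𝒪]
    [IsAdicComplete (IsLocalRing.maximalIdeal 𝒪) 𝒪]
    {Γ : Type*} [Group Γ] {d : Type*} [Fintype d] [DecidableEq d]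
    (ρbar : Γ →* GL d (IsLocalRing.ResidueField 𝒪)) [Finite ρbar.range]
    (hN : ((Nat.card ρbar.range : ℕ) : IsLocalRing.ResidueField 𝒪) ≠ 0) :
    ∃ ρ : Γ →* GL d 𝒪,
      (∀ g, ((ρ g : GL d 𝒪) : Matrix d d 𝒪).map (IsLocalRing.residue 𝒪)
        = ((ρbar g : GL d (IsLocalRing.ResidueField 𝒪)) :
            Matrix d d (IsLocalRing.ResidueField 𝒪))) ∧
      ρ.ker = ρbar.ker ∧ Finite ρ.range := by
  obtain ⟨ρ', hρ'⟩ := exists_lift_of_isLocalRing hN ρbar.range.subtype
  refine ⟨ρ'.comp ρbar.rangeRestrict, fun g => ?_, ?_, ?_⟩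
  · rw [MonoidHom.comp_apply, hρ']
    rfl
  · ext g
    rw [MonoidHom.mem_ker, MonoidHom.mem_ker, MonoidHom.comp_apply]
    constructor
    · intro h
      have h2 := hρ' (ρbar.rangeRestrict g)
      rw [h] at h2
      have h3 : ((ρbar g : GL d (IsLocalRing.ResidueField 𝒪)) :
          Matrix d d (IsLocalRing.ResidueField 𝒪)) = 1 := by
        have : ((1 : GL d 𝒪) : Matrix d d 𝒪).map (IsLocalRing.residue 𝒪) = 1 := by
          rw [Units.val_one]
          exact (IsLocalRing.residue 𝒪).mapMatrix.map_one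
        rw [this] at h2
        exact h2.symm
      exact Units.ext h3
    · intro h
      have : ρbar.rangeRestrict g = 1 := Subtype.ext h
      rw [this, map_one]
  · have hfin : (Set.range ρ').Finite := Set.finite_range ρ'
    have hsub : ((ρ'.comp ρbar.rangeRestrict).range : Set (GL d 𝒪)) ⊆ Set.range ρ' := by
      rintro _ ⟨g, rfl⟩
      exact ⟨ρbar.rangeRestrict g, rfl⟩
    exact (hfin.subset hsub).to_subtype

end Main

end Fermat.Agent.S48.H368
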