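import Mathlib
import Fermat.Agent.S48.H368.Lift
import Fermat.Agent.S48.H368.Emb

/-!
# Row S48 (Deligne–Serre), piece LIFT-ℂ (helper368)

`exists_complex_lift`: a representation `ρ̄ : Γ →* GL₂(𝔽_ℓ)` whose image has order prime to `ℓ`
lifts to a complex representation `ρ : Γ →* GL₂(ℂ)` with the same kernel, compatibly with a
coefficient ring `O` (countable domain with embeddings `j : O → ℂ`, `ι : O → ℤ_[ℓ]`, containing
a primitive `n`-th root of unity `ζ`, where `ρ̄(g)ⁿ = 1` for all `g`): for every `g` there are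
exponents `a, b` with

* `tr ρ(g) = j (ζ^a + ζ^b)`, `det ρ(g) = j (ζ^a ζ^b)`,
* `tr ρ̄(g) = (ζ^a + ζ^b mod ℓ)`, `det ρ̄(g) = (ζ^a ζ^b mod ℓ)`   (reduction `= toZMod ∘ ι`).

This is the input of Deligne–Serre §8.7.
-/

set_option autoImplicit false

open Matrix Polynomial

namespace Fermat.Agent.S48.H368

/-- Over an algebraically closed field, a `2 × 2` matrix of finite order `n` has trace `α + β`
and determinant `α β` with `αⁿ = βⁿ = 1`. -/
theorem exists_roots_of_pow_eq_one {K : Type*} [Field K] [IsAlgClosed K]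
    (y : Matrix (Fin 2) (Fin 2) K) (n : ℕ) (hy : y ^ n = 1) :
    ∃ α β : K, α ^ n = 1 ∧ β ^ n = 1 ∧ y.trace = α + β ∧ y.det = α * β := by
  have hcard : Multiset.card y.charpoly.roots = 2 := by
    rw [← (IsAlgClosed.splits y.charpoly).natDegree_eq_card_roots, Matrix.charpoly_natDegree_eq_dim,
      Fintype.card_fin]
  obtain ⟨α, β, hαβ⟩ := Multiset.card_eq_two.1 hcard
  have hroot : ∀ γ ∈ y.charpoly.roots, γ ^ n = 1 := by
    intro γ hγ
    have h1 : γ ∈ spectrum K y :=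
      Matrix.mem_spectrum_iff_isRoot_charpoly.2 (Polynomial.isRoot_of_mem_roots hγ)
    have h2 := spectrum.pow_mem_pow y n h1
    rw [hy, spectrum.one_eq] at h2
    exact h2
  refine ⟨α, β, hroot α (by rw [hαβ]; simp), hroot β (by rw [hαβ]; simp), ?_, ?_⟩
  · rw [Matrix.trace_eq_sum_roots_charpoly, hαβ]
    simp
  · rw [Matrix.det_eq_prod_roots_charpoly, hαβ]
    simp

/-- **LIFT over `ℤ_[ℓ]`.** A representation `ρ̄ : Γ →* GL_d(𝔽_ℓ)` with image of order prime to `ℓ`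
lifts to `ρ : Γ →* GL_d(ℤ_[ℓ])` with the same kernel. -/
theorem exists_lift_padicInt (ℓ : ℕ) [Fact ℓ.Prime] {Γ : Type*} [Group Γ]
    {d : Type*} [Fintype d] [DecidableEq d] (ρbar : Γ →* GL d (ZMod ℓ))
    (hℓ : ¬ ℓ ∣ Nat.card ρbar.range) :
    ∃ ρ : Γ →* GL d ℤ_[ℓ],
      (∀ g, ((ρ g : GL d ℤ_[ℓ]) : Matrix d d ℤ_[ℓ]).map PadicInt.toZMod
        = ((ρbar g : GL d (ZMod ℓ)) : Matrix d d (ZMod ℓ))) ∧ ρ.ker = ρbar.ker := by
  have hc : IsAdicComplete (RingHom.ker (PadicInt.toZMod (p := ℓ))) ℤ_[ℓ] := by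
    rw [PadicInt.ker_toZMod]
    infer_instance
  have hunit : IsUnit ((Nat.card ρbar.range : ℕ) : ℤ_[ℓ]) := by
    rw [PadicInt.isUnit_iff, PadicInt.norm_natCast_eq_one_iff]
    exact (Nat.Prime.coprime_iff_not_dvd Fact.out).2 hℓ
  obtain ⟨ρ', hρ'⟩ := exists_lift_monoidHom (PadicInt.toZMod (p := ℓ))
    (ZMod.ringHom_surjective PadicInt.toZMod) hunit ρbar.range.subtype
  refine ⟨ρ'.comp ρbar.rangeRestrict, fun g => ?_, ?_⟩
  · rw [MonoidHom.comp_apply, hρ']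
    rfl
  · ext g
    rw [MonoidHom.mem_ker, MonoidHom.mem_ker, MonoidHom.comp_apply]
    constructor
    · intro h
      have h2 := hρ' (ρbar.rangeRestrict g)
      rw [h] at h2
      have h3 : ((ρbar g : GL d (ZMod ℓ)) : Matrix d d (ZMod ℓ)) = 1 := by
        have : ((1 : GL d ℤ_[ℓ]) : Matrix d d ℤ_[ℓ]).map (PadicInt.toZMod (p := ℓ)) = 1 := by
          rw [Units.val_one]
          exact (PadicInt.toZMod (p := ℓ)).mapMatrix.map_one
        rw [this] at h2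
        exact h2.symm
      exact Units.ext h3
    · intro h
      have : ρbar.rangeRestrict g = 1 := Subtype.ext h
      rw [this, map_one]

/-- **LIFT-ℂ.**  See the module docstring. -/
theorem exists_complex_lift (ℓ : ℕ) [Fact ℓ.Prime] {O : Type} [CommRing O] [IsDomain O]
    [Countable O] (j : O →+* ℂ) (hj : Function.Injective j) (ι : O →+* ℤ_[ℓ])
    (hι : Function.Injective ι) {Γ : Type*} [Group Γ] (ρbar : Γ →* GL (Fin 2) (ZMod ℓ))
    (hℓ : ¬ ℓ ∣ Nat.card ρbar.range) (n : ℕ) (hn : 0 < n) (hexp : ∀ g, ρbar g ^ n = 1)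
    (ζ : O) (hζ : IsPrimitiveRoot ζ n) :
    ∃ ρ : Γ →* GL (Fin 2) ℂ, ρ.ker = ρbar.ker ∧
      ∀ g, ∃ a b : ℕ,
        ((ρ g : GL (Fin 2) ℂ) : Matrix (Fin 2) (Fin 2) ℂ).trace = j (ζ ^ a + ζ ^ b) ∧
        ((ρ g : GL (Fin 2) ℂ) : Matrix (Fin 2) (Fin 2) ℂ).det = j (ζ ^ a * ζ ^ b) ∧
        ((ρbar g : GL (Fin 2) (ZMod ℓ)) : Matrix (Fin 2) (Fin 2) (ZMod ℓ)).trace
          = PadicInt.toZMod (ι (ζ ^ a + ζ ^ b)) ∧
        ((ρbar g : GL (Fin 2) (ZMod ℓ)) : Matrix (Fin 2) (Fin 2) (ZMod ℓ)).det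
          = PadicInt.toZMod (ι (ζ ^ a * ζ ^ b)) := by
  classical
  obtain ⟨ρt, hρt, hker⟩ := exists_lift_padicInt ℓ ρbar hℓ
  -- the embedding `ℤ_[ℓ] → ℂ` compatible with `O`
  let c : ℤ_[ℓ] →+* ℚ_[ℓ] := PadicInt.Coe.ringHom
  have hc : Function.Injective c := Subtype.coe_injective
  obtain ⟨σ, hσ⟩ := exists_padic_embedding ℓ j hj (c.comp ι) (hc.comp hι)
  let τ : ℤ_[ℓ] →+* ℂ := σ.comp c
  have hτ : Function.Injective τ := σ.injective.comp hc
  have hτι : ∀ x : O, τ (ι x) = j x := fun x => hσ x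
  have hτM : Function.Injective (τ.mapMatrix : Matrix (Fin 2) (Fin 2) ℤ_[ℓ] →+* _) := by
    intro x y hxy
    ext i k
    have := congrFun (congrFun hxy i) k
    exact hτ (by simpa using this)
  let ρ : Γ →* GL (Fin 2) ℂ :=
    (Units.map (τ.mapMatrix (m := Fin 2)).toMonoidHom).comp ρt
  have hρval : ∀ g, ((ρ g : GL (Fin 2) ℂ) : Matrix (Fin 2) (Fin 2) ℂ)
      = τ.mapMatrix ((ρt g : GL (Fin 2) ℤ_[ℓ]) : Matrix (Fin 2) (Fin 2) ℤ_[ℓ]) := fun g => rfl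
  have hkerρ : ρ.ker = ρbar.ker := by
    rw [← hker]
    ext g
    rw [MonoidHom.mem_ker, MonoidHom.mem_ker]
    constructor
    · intro h
      apply Units.ext
      apply hτM
      rw [← hρval, h, Units.val_one, Units.val_one, map_one]
    · intro h
      apply Units.ext
      rw [hρval, h, Units.val_one, Units.val_one, map_one]
  refine ⟨ρ, hkerρ, fun g => ?_⟩
  -- `ρ g` has order dividing `n`
  have hgn : g ^ n ∈ ρbar.ker := by
    rw [MonoidHom.mem_ker, map_pow]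
    exact hexp g
  have hρn : ((ρ g : GL (Fin 2) ℂ) : Matrix (Fin 2) (Fin 2) ℂ) ^ n = 1 := by
    rw [← hkerρ, MonoidHom.mem_ker, map_pow] at hgn
    rw [← Units.val_pow_eq_pow_val, hgn, Units.val_one]
  obtain ⟨α, β, hα, hβ, htr, hdet⟩ := exists_roots_of_pow_eq_one _ n hρn
  -- roots of unity come from `O`
  have hjζ : IsPrimitiveRoot (j ζ) n := hζ.map_of_injective hj
  have : NeZero n := ⟨hn.ne'⟩
  obtain ⟨a, -, ha⟩ := hjζ.eq_pow_of_pow_eq_one hα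
  obtain ⟨b, -, hb⟩ := hjζ.eq_pow_of_pow_eq_one hβ
  have htr' : ((ρ g : GL (Fin 2) ℂ) : Matrix (Fin 2) (Fin 2) ℂ).trace = j (ζ ^ a + ζ ^ b) := by
    rw [htr, map_add, map_pow, map_pow, ha, hb]
  have hdet' : ((ρ g : GL (Fin 2) ℂ) : Matrix (Fin 2) (Fin 2) ℂ).det = j (ζ ^ a * ζ ^ b) := by
    rw [hdet, map_mul, map_pow, map_pow, ha, hb]
  -- descend to `ℤ_[ℓ]`
  have htrt : ((ρt g : GL (Fin 2) ℤ_[ℓ]) : Matrix (Fin 2) (Fin 2) ℤ_[ℓ]).trace
      = ι (ζ ^ a + ζ ^ b) := by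
    apply hτ
    rw [hτι, ← htr', hρval]
    exact AddMonoidHom.map_trace τ _
  have hdett : ((ρt g : GL (Fin 2) ℤ_[ℓ]) : Matrix (Fin 2) (Fin 2) ℤ_[ℓ]).det
      = ι (ζ ^ a * ζ ^ b) := by
    apply hτ
    rw [hτι, ← hdet', hρval]
    exact RingHom.map_det τ _
  refine ⟨a, b, htr', hdet', ?_, ?_⟩
  · rw [← htrt, ← hρt g]
    exact (AddMonoidHom.map_trace (PadicInt.toZMod (p := ℓ)) _).symm
  · rw [← hdett, ← hρt g]
    exact (RingHom.map_det (PadicInt.toZMod (p := ℓ)) _).symm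

end Fermat.Agent.S48.H368
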