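import Mathlib
import Fermat.Agent.S48.Top.Spec
import Fermat.Agent.S48.H368.Lift
import Fermat.Agent.S48.H368.Emb
import Fermat.Agent.S48.H368.LiftC

/-!
# Row S48 (Deligne–Serre): the input `Top.LiftStatement` (helper368)

`liftStatement : Top.LiftStatement`, by the Witt vector route:

* `κ = 𝔽̄_ℓ`, `W = 𝕎 κ` (complete for `(ℓ) = ker (W → κ)`, characteristic zero, cardinality
  continuum), embedded in `ℂ` by `τ` (`Emb.lean`);
* `V` = integral closure of `τ(W)` in `ℂ` (it contains `ℤ̄`), `M` a maximal ideal of `V` above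
  `(ℓ)`, `k = V / M`, `φ : ℤ̄ → V → k`;
* `W → k` is surjective (`k` is integral over the algebraically closed field `κ`), so every
  `r : G →* GL₂(k)` lifts to `GL₂(W)` (`Lift.lean`: Newton iteration), then to `GL₂(ℂ)` by `τ`;
* traces and determinants of the lift are sums and products of roots of unity, hence in `ℤ̄`.
-/

set_option autoImplicit false

open Cardinal Matrix Polynomial

namespace Fermat.Agent.S48.H368

open Fermat.Agent.S48.Top

section Witt

variable (ℓ : ℕ) [hℓ : Fact ℓ.Prime]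

/-- `𝕎(𝔽̄_ℓ)` has characteristic zero. -/
theorem wittVector_charZero : CharZero (WittVector ℓ (AlgebraicClosure (ZMod ℓ))) := by
  obtain ⟨q, hq⟩ := CharP.exists (WittVector ℓ (AlgebraicClosure (ZMod ℓ)))
  rcases CharP.char_is_prime_or_zero (WittVector ℓ (AlgebraicClosure (ZMod ℓ))) q with hprime | h0
  · exfalso
    have h1 : ((q : ℕ) : WittVector ℓ (AlgebraicClosure (ZMod ℓ))) = 0 := CharP.cast_eq_zero _ q
    have h2 : ((q : ℕ) : AlgebraicClosure (ZMod ℓ)) = 0 := by
      have := congrArg (WittVector.constantCoeff (p := ℓ) (R := AlgebraicClosure (ZMod ℓ))) h1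
      rw [map_natCast, map_zero] at this
      exact this
    have h3 : ℓ ∣ q := (CharP.cast_eq_zero_iff (AlgebraicClosure (ZMod ℓ)) ℓ q).1 h2
    have h4 : ℓ = q := (Nat.prime_dvd_prime_iff_eq hℓ.out hprime).1 h3
    rw [← h4] at h1
    exact WittVector.p_nonzero ℓ (AlgebraicClosure (ZMod ℓ)) h1
  · subst h0
    exact CharP.charP_to_charZero _

/-- `𝕎(𝔽̄_ℓ)` has cardinality at most the continuum. -/
theorem mk_wittVector_le : #(WittVector ℓ (AlgebraicClosure (ZMod ℓ))) ≤ 𝔠 := by
  have h1 : #(WittVector ℓ (AlgebraicClosure (ZMod ℓ))) ≤ #(ℕ → AlgebraicClosure (ZMod ℓ)) :=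
    Cardinal.mk_le_of_injective (f := fun x : WittVector ℓ (AlgebraicClosure (ZMod ℓ)) => x.coeff)
      (fun x y h => WittVector.ext fun n => congrFun h n)
  have h2 : #(AlgebraicClosure (ZMod ℓ)) ≤ ℵ₀ := by
    have := Algebra.IsAlgebraic.cardinalMk_le_max (ZMod ℓ) (AlgebraicClosure (ZMod ℓ))
    refine this.trans (max_le ?_ le_rfl)
    exact Cardinal.mk_le_aleph0
  have h3 : #(ℕ → AlgebraicClosure (ZMod ℓ)) ≤ 𝔠 := by
    rw [← Cardinal.power_def, Cardinal.mk_nat]
    calc #(AlgebraicClosure (ZMod ℓ)) ^ ℵ₀ ≤ ℵ₀ ^ ℵ₀ := Cardinal.power_le_power_right h2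
      _ = 𝔠 := Cardinal.aleph0_power_aleph0
  exact h1.trans h3

/-- An embedding of `𝕎(𝔽̄_ℓ)` into `ℂ`. -/
theorem exists_wittVector_embedding :
    ∃ τ : WittVector ℓ (AlgebraicClosure (ZMod ℓ)) →+* ℂ, Function.Injective τ := by
  have := wittVector_charZero ℓ
  have hinj : Function.Injective (algebraMap (WittVector ℓ (AlgebraicClosure (ZMod ℓ)))
      (FractionRing (WittVector ℓ (AlgebraicClosure (ZMod ℓ))))) := IsFractionRing.injective _ _
  have : CharZero (FractionRing (WittVector ℓ (AlgebraicClosure (ZMod ℓ)))) :=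
    charZero_of_injective_algebraMap hinj
  have hcard : #(FractionRing (WittVector ℓ (AlgebraicClosure (ZMod ℓ)))) ≤ 𝔠 := by
    rw [IsFractionRing.cardinalMk (WittVector ℓ (AlgebraicClosure (ZMod ℓ)))]
    exact mk_wittVector_le ℓ
  obtain ⟨σ⟩ := nonempty_algHom_complex (O := ℤ)
    (E := FractionRing (WittVector ℓ (AlgebraicClosure (ZMod ℓ)))) hcard
  exact ⟨σ.toRingHom.comp (algebraMap _ _), σ.toRingHom.injective.comp hinj⟩

end Witt

/-- A root of unity in `ℂ` is an algebraic integer. -/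
theorem isIntegral_of_pow_eq_one {n : ℕ} (hn : 0 < n) {α : ℂ} (hα : α ^ n = 1) :
    IsIntegral ℤ α :=
  ⟨X ^ n - C 1, monic_X_pow_sub_C 1 hn.ne', by simp [hα]⟩

/-- **The input `LiftStatement` of row S48.** -/
theorem liftStatement : LiftStatement := by
  intro ℓ hprime
  have hfact : Fact ℓ.Prime := ⟨hprime⟩
  classical
  -- Witt vectors and their embedding
  have hW0 := wittVector_charZero ℓ
  obtain ⟨τ, hτ⟩ := exists_wittVector_embedding ℓ
  let _ : Algebra (WittVector ℓ (AlgebraicClosure (ZMod ℓ))) ℂ := τ.toAlgebra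
  have halg : ∀ w, algebraMap (WittVector ℓ (AlgebraicClosure (ZMod ℓ))) ℂ w = τ w := fun _ => rfl
  -- the maximal ideal of `W`
  have hccsurj : Function.Surjective
      (WittVector.constantCoeff (p := ℓ) (R := AlgebraicClosure (ZMod ℓ))) :=
    WittVector.constantCoeff_surjective ℓ
  have hmmax : (RingHom.ker (WittVector.constantCoeff (p := ℓ)
      (R := AlgebraicClosure (ZMod ℓ)))).IsMaximal :=
    RingHom.ker_isMaximal_of_surjective _ hccsurj
  -- a maximal ideal of the integral closure above it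
  have hkerle : RingHom.ker (algebraMap (WittVector ℓ (AlgebraicClosure (ZMod ℓ)))
      (integralClosure (WittVector ℓ (AlgebraicClosure (ZMod ℓ))) ℂ)) ≤
      RingHom.ker (WittVector.constantCoeff (p := ℓ) (R := AlgebraicClosure (ZMod ℓ))) := by
    intro w hw
    rw [RingHom.mem_ker] at hw
    have h0 : algebraMap (WittVector ℓ (AlgebraicClosure (ZMod ℓ))) ℂ w = 0 := by
      have := congrArg Subtype.val hw
      simpa using this
    have h1 : τ w = 0 := (halg w).symm.trans h0
    have h2 : w = 0 := hτ (by rw [h1, map_zero])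
    rw [h2]
    exact Ideal.zero_mem _
  obtain ⟨M, hMmax, hMcomap⟩ := Ideal.exists_ideal_over_maximal_of_isIntegral
    (S := integralClosure (WittVector ℓ (AlgebraicClosure (ZMod ℓ))) ℂ)
    (RingHom.ker (WittVector.constantCoeff (p := ℓ) (R := AlgebraicClosure (ZMod ℓ)))) hkerle
  let _ : Field (integralClosure (WittVector ℓ (AlgebraicClosure (ZMod ℓ))) ℂ ⧸ M) :=
    Ideal.Quotient.field M
  -- the residue map on `W`
  let πk : WittVector ℓ (AlgebraicClosure (ZMod ℓ)) →+*
      (integralClosure (WittVector ℓ (AlgebraicClosure (ZMod ℓ))) ℂ ⧸ M) :=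
    (Ideal.Quotient.mk M).comp (algebraMap _ _)
  have hkerπ : RingHom.ker πk =
      RingHom.ker (WittVector.constantCoeff (p := ℓ) (R := AlgebraicClosure (ZMod ℓ))) := by
    rw [← hMcomap]
    ext w
    rw [RingHom.mem_ker, Ideal.mem_comap]
    exact Ideal.Quotient.eq_zero_iff_mem
  -- `κ → k`
  let ι : AlgebraicClosure (ZMod ℓ) →+*
      (integralClosure (WittVector ℓ (AlgebraicClosure (ZMod ℓ))) ℂ ⧸ M) :=
    RingHom.liftOfSurjective _ hccsurj ⟨πk, hkerπ.ge⟩
  have hιcomp : ι.comp (WittVector.constantCoeff (p := ℓ) (R := AlgebraicClosure (ZMod ℓ))) = πk :=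
    RingHom.liftOfSurjective_comp _ hccsurj ⟨πk, hkerπ.ge⟩
  have hπint : πk.IsIntegral :=
    RingHom.IsIntegral.trans _ _ (algebraMap_isIntegral_iff.2 inferInstance)
      (RingHom.isIntegral_of_surjective _ Ideal.Quotient.mk_surjective)
  have hιint : ι.IsIntegral := by
    rw [← hιcomp] at hπint
    exact RingHom.IsIntegral.tower_top _ _ hπint
  have hιbij : Function.Bijective ι := IsAlgClosed.ringHom_bijective_of_isIntegral ι hιint
  have hπsurj : Function.Surjective πk := by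
    rw [← hιcomp]
    exact hιbij.2.comp hccsurj
  -- characteristic of `k`
  have hℓk : ((ℓ : ℕ) : integralClosure (WittVector ℓ (AlgebraicClosure (ZMod ℓ))) ℂ ⧸ M) = 0 := by
    have h1 : ((ℓ : ℕ) : WittVector ℓ (AlgebraicClosure (ZMod ℓ))) ∈ RingHom.ker πk := by
      rw [hkerπ, RingHom.mem_ker, map_natCast]
      exact CharP.cast_eq_zero _ ℓ
    have := (RingHom.mem_ker).1 h1
    simpa using this
  have hchar : CharP (integralClosure (WittVector ℓ (AlgebraicClosure (ZMod ℓ))) ℂ ⧸ M) ℓ :=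
    (CharP.charP_iff_prime_eq_zero hprime).2 hℓk
  -- completeness
  have hcomplete : IsAdicComplete (RingHom.ker πk) (WittVector ℓ (AlgebraicClosure (ZMod ℓ))) := by
    rw [hkerπ, WittVector.ker_constantCoeff]
    infer_instance
  -- `φ`
  have hZV : ∀ z : Zbar, (z : ℂ) ∈ integralClosure (WittVector ℓ (AlgebraicClosure (ZMod ℓ))) ℂ :=
    fun z => IsIntegral.tower_top (R := ℤ) z.2
  let incl : Zbar →+* integralClosure (WittVector ℓ (AlgebraicClosure (ZMod ℓ))) ℂ :=
    RingHom.codRestrict (algebraMap Zbar ℂ) _ hZV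
  refine ⟨_, inferInstance, hchar, (Ideal.Quotient.mk M).comp incl, ?_⟩
  intro G _ _ hG r
  -- `|G|` is a unit of `W`
  have hunit : IsUnit ((Nat.card G : ℕ) : WittVector ℓ (AlgebraicClosure (ZMod ℓ))) := by
    have h1 : ((Nat.card G : ℕ) : WittVector ℓ (AlgebraicClosure (ZMod ℓ))) ∉
        IsLocalRing.maximalIdeal _ := by
      rw [← IsLocalRing.eq_maximalIdeal hmmax, RingHom.mem_ker, map_natCast]
      intro h0
      exact hG ((CharP.cast_eq_zero_iff (AlgebraicClosure (ZMod ℓ)) ℓ _).1 h0)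
    exact (IsLocalRing.notMem_maximalIdeal).1 h1
  obtain ⟨Rt, hRt⟩ := exists_lift_monoidHom πk hπsurj hunit r
  let R : G →* GL (Fin 2) ℂ := (Units.map (τ.mapMatrix (m := Fin 2)).toMonoidHom).comp Rt
  have hRval : ∀ g, ((R g : GL (Fin 2) ℂ) : Matrix (Fin 2) (Fin 2) ℂ)
      = τ.mapMatrix ((Rt g : GL (Fin 2) (WittVector ℓ (AlgebraicClosure (ZMod ℓ)))) :
          Matrix (Fin 2) (Fin 2) (WittVector ℓ (AlgebraicClosure (ZMod ℓ)))) := fun g => rfl
  refine ⟨R, fun g => ?_⟩
  have hn : 0 < Nat.card G := Nat.card_pos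
  have hgn : ((R g : GL (Fin 2) ℂ) : Matrix (Fin 2) (Fin 2) ℂ) ^ Nat.card G = 1 := by
    rw [← Units.val_pow_eq_pow_val, ← map_pow, pow_card_eq_one', map_one, Units.val_one]
  obtain ⟨α, β, hα, hβ, htr, hdet⟩ := exists_roots_of_pow_eq_one _ _ hgn
  have hαi := isIntegral_of_pow_eq_one hn hα
  have hβi := isIntegral_of_pow_eq_one hn hβ
  refine ⟨⟨α + β, hαi.add hβi⟩, ⟨α * β, hαi.mul hβi⟩, htr.symm, hdet.symm, ?_, ?_⟩
  · -- trace
    have h1 : incl ⟨α + β, hαi.add hβi⟩ = algebraMap (WittVector ℓ (AlgebraicClosure (ZMod ℓ)))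
        (integralClosure (WittVector ℓ (AlgebraicClosure (ZMod ℓ))) ℂ)
        (((Rt g : GL (Fin 2) (WittVector ℓ (AlgebraicClosure (ZMod ℓ)))) :
          Matrix (Fin 2) (Fin 2) (WittVector ℓ (AlgebraicClosure (ZMod ℓ)))).trace) := by
      apply Subtype.ext
      change α + β = τ _
      rw [← htr, hRval]
      exact (AddMonoidHom.map_trace τ _).symm
    rw [RingHom.comp_apply, h1, ← hRt g]
    exact AddMonoidHom.map_trace πk _
  · -- determinant
    have h1 : incl ⟨α * β, hαi.mul hβi⟩ = algebraMap (WittVector ℓ (AlgebraicClosure (ZMod ℓ)))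
        (integralClosure (WittVector ℓ (AlgebraicClosure (ZMod ℓ))) ℂ)
        (((Rt g : GL (Fin 2) (WittVector ℓ (AlgebraicClosure (ZMod ℓ)))) :
          Matrix (Fin 2) (Fin 2) (WittVector ℓ (AlgebraicClosure (ZMod ℓ)))).det) := by
      apply Subtype.ext
      change α * β = τ _
      rw [← hdet, hRval]
      exact (RingHom.map_det τ
        ((Rt g : GL (Fin 2) (WittVector ℓ (AlgebraicClosure (ZMod ℓ)))) :
          Matrix (Fin 2) (Fin 2) (WittVector ℓ (AlgebraicClosure (ZMod ℓ))))).symm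
    rw [RingHom.comp_apply, h1, ← hRt g]
    exact RingHom.map_det πk
      ((Rt g : GL (Fin 2) (WittVector ℓ (AlgebraicClosure (ZMod ℓ)))) :
        Matrix (Fin 2) (Fin 2) (WittVector ℓ (AlgebraicClosure (ZMod ℓ))))

end Fermat.Agent.S48.H368
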