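import Mathlib

/-!
# Row S48 (Deligne–Serre), piece SPLIT (helper368)

For a domain `O` of characteristic zero which is finite over `ℤ` (an order in a number field),
there are infinitely many primes `ℓ` with a ring homomorphism `O →+* ℤ_[ℓ]`
(`exists_padicInt_hom`).  This is the infinite set `L` of Deligne–Serre §8.

Ingredients: Schur's theorem (infinitely many primes divide the values of a non-constant integer
polynomial), Hensel's lemma, the primitive element theorem and the integral closedness of `ℤ_[ℓ]`.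
-/

set_option autoImplicit false

open Polynomial

namespace Fermat.Agent.S48.H368

/-- **Schur.** Infinitely many primes divide some value of a non-constant integer polynomial. -/
theorem exists_prime_dvd_eval (P : ℤ[X]) (hP : 0 < P.natDegree) (S : Finset ℕ) :
    ∃ ℓ : ℕ, ℓ.Prime ∧ ℓ ∉ S ∧ ∃ m : ℤ, (ℓ : ℤ) ∣ P.eval m := by
  classical
  set c := P.eval 0 with hc
  by_cases hc0 : c = 0
  · obtain ⟨ℓ, hℓ, hprime⟩ := Nat.exists_infinite_primes (S.sup id + 1)
    refine ⟨ℓ, hprime, ?_, 0, by rw [← hc, hc0]; exact dvd_zero _⟩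
    intro hmem
    have := Finset.le_sup (f := id) hmem
    simp only [id] at this
    omega
  · obtain ⟨Q, hQ⟩ : X ∣ P - C c := by
      rw [Polynomial.X_dvd_iff]
      simp [hc, coeff_zero_eq_eval_zero]
    have hPQ : ∀ x : ℤ, P.eval x = c + x * Q.eval x := by
      intro x
      have := congrArg (Polynomial.eval x) hQ
      simp only [eval_sub, eval_C, eval_mul, eval_X] at this
      linarith
    set Pr : ℤ := ∏ p ∈ S.filter Nat.Prime, (p : ℤ) with hPrdef
    have hPr : Pr ≠ 0 := by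
      refine Finset.prod_ne_zero_iff.2 fun p hp => ?_
      have := (Finset.mem_filter.1 hp).2
      exact_mod_cast this.ne_zero
    have hcPr : c * Pr ≠ 0 := mul_ne_zero hc0 hPr
    -- the polynomial `G(t) = P(cPr t)`
    set G : ℤ[X] := P.comp (C (c * Pr) * X) with hG
    have hGdeg : G.natDegree = P.natDegree := by
      rw [hG, natDegree_comp, natDegree_C_mul_X _ hcPr, mul_one]
    have hGeval : ∀ t : ℤ, G.eval t = P.eval (c * Pr * t) := by
      intro t
      simp [hG, eval_comp]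
    have hne : ∀ a : ℤ, G - C a ≠ 0 := by
      intro a h0
      have : G = C a := sub_eq_zero.1 h0
      rw [this, natDegree_C] at hGdeg
      omega
    set H : ℤ[X] := (G - C (-c)) * (G - C 0) * (G - C c) with hH
    have hHne : H ≠ 0 := mul_ne_zero (mul_ne_zero (hne _) (hne _)) (hne _)
    obtain ⟨t, ht⟩ := Infinite.exists_notMem_finset H.roots.toFinset
    have hHt : H.eval t ≠ 0 := by
      intro h0
      exact ht (Multiset.mem_toFinset.2 ((mem_roots hHne).2 h0))
    simp only [hH, eval_mul, eval_sub, eval_C, hGeval, hPQ (c * Pr * t), mul_ne_zero_iff] at hHt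
    obtain ⟨⟨h1, h2⟩, h3⟩ := hHt
    set F : ℤ := 1 + Pr * t * Q.eval (c * Pr * t) with hF
    have hcF : c + c * Pr * t * Q.eval (c * Pr * t) = c * F := by rw [hF]; ring
    rw [hcF] at h1 h2 h3
    have hF0 : F ≠ 0 := by
      intro h; apply h2; rw [h]; ring
    have hF1 : F ≠ 1 := by
      intro h; apply h3; rw [h]; ring
    have hFm1 : F ≠ -1 := by
      intro h; apply h1; rw [h]; ring
    have hnat : F.natAbs ≠ 1 := by
      intro h
      rcases Int.natAbs_eq F with h' | h'
      · exact hF1 (by rw [h', h]; rfl)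
      · exact hFm1 (by rw [h', h]; rfl)
    obtain ⟨ℓ, hℓ, hdvd⟩ := Nat.exists_prime_and_dvd hnat
    have hdvdF : (ℓ : ℤ) ∣ F := Int.natCast_dvd.2 hdvd
    refine ⟨ℓ, hℓ, ?_, c * Pr * t, ?_⟩
    · intro hmem
      have h4 : (ℓ : ℤ) ∣ Pr :=
        Finset.dvd_prod_of_mem (fun p : ℕ => (p : ℤ)) (Finset.mem_filter.2 ⟨hmem, hℓ⟩)
      have h5 : (ℓ : ℤ) ∣ 1 := by
        have h6 : (ℓ : ℤ) ∣ Pr * t * Q.eval (c * Pr * t) := (h4.mul_right _).mul_right _
        have h7 := dvd_sub hdvdF h6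
        simpa [hF] using h7
      have h8 := Int.natCast_dvd_natCast.1 (by simpa using h5 : ((ℓ : ℕ) : ℤ) ∣ ((1 : ℕ) : ℤ))
      exact hℓ.one_lt.ne' (Nat.dvd_one.1 h8)
    · rw [hPQ, hcF]
      exact hdvdF.mul_left _

/-- A separable integer polynomial and its derivative generate an ideal containing a non-zero
integer. -/
theorem exists_int_bezout (P : ℤ[X]) (hsep : (P.map (Int.castRingHom ℚ)).Separable) :
    ∃ (R : ℤ) (U V : ℤ[X]), R ≠ 0 ∧ U * P + V * derivative P = C R := by
  obtain ⟨a, b, hab⟩ := hsep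
  obtain ⟨na, hna, hA⟩ := IsLocalization.integerNormalization_spec (nonZeroDivisors ℤ) a
  obtain ⟨nb, hnb, hB⟩ := IsLocalization.integerNormalization_spec (nonZeroDivisors ℤ) b
  set A := IsLocalization.integerNormalization (nonZeroDivisors ℤ) a
  set B := IsLocalization.integerNormalization (nonZeroDivisors ℤ) b
  refine ⟨na * nb, C nb * A, C na * B, mul_ne_zero (nonZeroDivisors.ne_zero hna)
    (nonZeroDivisors.ne_zero hnb), ?_⟩
  apply Polynomial.map_injective (Int.castRingHom ℚ) Int.cast_injective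
  have hA' : A.map (Int.castRingHom ℚ) = C (Int.castRingHom ℚ na) * a := by
    rw [← algebraMap_int_eq, hA]
    ext i
    simp [zsmul_eq_mul]
  have hB' : B.map (Int.castRingHom ℚ) = C (Int.castRingHom ℚ nb) * b := by
    rw [← algebraMap_int_eq, hB]
    ext i
    simp [zsmul_eq_mul]
  rw [Polynomial.map_add, Polynomial.map_mul, Polynomial.map_mul, Polynomial.map_mul,
    Polynomial.map_mul, Polynomial.map_C, Polynomial.map_C, Polynomial.map_C, hA', hB',
    ← derivative_map, map_mul, C_mul]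
  have h2 : C (Int.castRingHom ℚ nb) * (C (Int.castRingHom ℚ na) * a) * P.map (Int.castRingHom ℚ)
      + C (Int.castRingHom ℚ na) * (C (Int.castRingHom ℚ nb) * b)
        * derivative (P.map (Int.castRingHom ℚ))
      = C (Int.castRingHom ℚ na) * C (Int.castRingHom ℚ nb) * (a * P.map (Int.castRingHom ℚ)
        + b * derivative (P.map (Int.castRingHom ℚ))) := by
    ring
  rw [h2, hab, mul_one]

/-- **Hensel.** A simple root modulo `ℓ` of an integer polynomial lifts to `ℤ_[ℓ]`. -/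
theorem exists_padicInt_root (ℓ : ℕ) [Fact ℓ.Prime] (P : ℤ[X]) (m : ℤ)
    (h0 : (ℓ : ℤ) ∣ P.eval m) (h1 : ¬ (ℓ : ℤ) ∣ (derivative P).eval m) :
    ∃ z : ℤ_[ℓ], aeval z P = 0 := by
  have e : ∀ Q : ℤ[X], aeval (m : ℤ_[ℓ]) Q = ((Q.eval m : ℤ) : ℤ_[ℓ]) := by
    intro Q
    have := Polynomial.aeval_algebraMap_apply (A := ℤ) ℤ_[ℓ] m Q
    simpa using this
  have hn0 : ‖aeval (m : ℤ_[ℓ]) P‖ < 1 := by
    rw [e, PadicInt.norm_intCast_lt_one_iff]
    exact h0
  have hn1 : ‖aeval (m : ℤ_[ℓ]) (derivative P)‖ = 1 := by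
    rw [e, PadicInt.norm_intCast_eq_one_iff]
    have hp : Prime (ℓ : ℤ) := Nat.prime_iff_prime_int.1 Fact.out
    exact (hp.coprime_iff_not_dvd.2 h1).symm
  obtain ⟨z, hz, -⟩ := hensels_lemma (F := P) (a := (m : ℤ_[ℓ])) (by rw [hn1]; simpa using hn0)
  exact ⟨z, hz⟩

/-- Infinitely many primes `ℓ` for which a non-constant separable integer polynomial has a root in
`ℤ_[ℓ]`. -/
theorem exists_padicInt_root_of_separable (P : ℤ[X]) (hP : 0 < P.natDegree)
    (hsep : (P.map (Int.castRingHom ℚ)).Separable) (S : Finset ℕ) :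
    ∃ (ℓ : ℕ) (_ : Fact ℓ.Prime), ℓ ∉ S ∧ ∃ z : ℤ_[ℓ], aeval z P = 0 := by
  obtain ⟨R, U, V, hR, hUV⟩ := exists_int_bezout P hsep
  obtain ⟨ℓ, hℓ, hℓS, m, hm⟩ := exists_prime_dvd_eval P hP (S ∪ R.natAbs.primeFactors)
  have hfact : Fact ℓ.Prime := ⟨hℓ⟩
  refine ⟨ℓ, hfact, fun h => hℓS (Finset.mem_union_left _ h), ?_⟩
  apply exists_padicInt_root ℓ P m hm
  intro hd
  have h1 := congrArg (Polynomial.eval m) hUV
  simp only [eval_add, eval_mul, eval_C] at h1
  have hR' : (ℓ : ℤ) ∣ R := by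
    rw [← h1]
    exact dvd_add (hm.mul_left _) (hd.mul_left _)
  apply hℓS
  apply Finset.mem_union_right
  rw [Nat.mem_primeFactors]
  exact ⟨hℓ, Int.natCast_dvd.1 hR', by simpa using hR⟩

/-- **SPLIT.**  For a domain `O` of characteristic zero, finite over `ℤ`, and any finite set `S`
of primes, there are a prime `ℓ ∉ S` and an injective ring homomorphism `O →+* ℤ_[ℓ]`. -/
theorem exists_padicInt_hom (O : Type*) [CommRing O] [IsDomain O] [CharZero O]
    [Module.Finite ℤ O] (S : Finset ℕ) :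
    ∃ (ℓ : ℕ) (_ : Fact ℓ.Prime), ℓ ∉ S ∧ ∃ ι : O →+* ℤ_[ℓ], Function.Injective ι := by
  classical
  have hinj : Function.Injective (algebraMap O (FractionRing O)) := IsFractionRing.injective O (FractionRing O)
  have : CharZero (FractionRing O) := charZero_of_injective_algebraMap hinj
  have htower : @IsScalarTower ℤ ℚ (FractionRing O) _ _ (Algebra.toSMul) := by
    refine IsScalarTower.of_algebraMap_eq ?_
    intro x
    simp
  have : FiniteDimensional ℚ (FractionRing O) :=
    Module.Finite.of_isLocalization ℤ O (Rₚ := ℚ) (Sₚ := FractionRing O) (nonZeroDivisors ℤ)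
  let pb : PowerBasis ℚ (FractionRing O) :=
    Field.powerBasisOfFiniteOfSeparable ℚ (FractionRing O)
  have hgen : IsIntegral ℚ pb.gen := pb.isIntegral_gen
  obtain ⟨n, hn, hP⟩ := IsLocalization.integerNormalization_spec (nonZeroDivisors ℤ)
    (minpoly ℚ pb.gen)
  set P := IsLocalization.integerNormalization (nonZeroDivisors ℤ) (minpoly ℚ pb.gen) with hPdef
  have hn0 : (n : ℚ) ≠ 0 := by exact_mod_cast nonZeroDivisors.ne_zero hn
  have hP' : P.map (Int.castRingHom ℚ) = C (n : ℚ) * minpoly ℚ pb.gen := by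
    rw [← algebraMap_int_eq, hP]
    ext i
    simp [zsmul_eq_mul]
  have hsep : (P.map (Int.castRingHom ℚ)).Separable := by
    rw [hP']
    have h1 : (minpoly ℚ pb.gen).Separable := (minpoly.irreducible hgen).separable
    have h2 : IsUnit (C (n : ℚ)) := Polynomial.isUnit_C.2 (isUnit_iff_ne_zero.2 hn0)
    exact Polynomial.Separable.unit_mul h2 h1
  have hdeg : 0 < P.natDegree := by
    have h1 : (P.map (Int.castRingHom ℚ)).natDegree = (minpoly ℚ pb.gen).natDegree := by
      rw [hP', natDegree_C_mul hn0]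
    have h2 : (P.map (Int.castRingHom ℚ)).natDegree = P.natDegree :=
      natDegree_map_eq_of_injective Int.cast_injective P
    rw [← h2, h1]
    exact minpoly.natDegree_pos hgen
  obtain ⟨ℓ, hfact, hℓS, z, hz⟩ := exists_padicInt_root_of_separable P hdeg hsep S
  refine ⟨ℓ, hfact, hℓS, ?_⟩
  -- the root in `ℚ_[ℓ]`
  have hroot : aeval (z : ℚ_[ℓ]) (minpoly ℚ pb.gen) = 0 := by
    have h1 : aeval (z : ℚ_[ℓ]) P = 0 := by
      have := congrArg (fun y : ℤ_[ℓ] => (y : ℚ_[ℓ])) hz
      simp only [PadicInt.coe_zero] at this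
      rw [← this]
      have h3 := Polynomial.aeval_algebraMap_apply (A := ℤ_[ℓ]) ℚ_[ℓ] z P
      simpa using h3
    have h2 : aeval (z : ℚ_[ℓ]) P = (n : ℚ_[ℓ]) * aeval (z : ℚ_[ℓ]) (minpoly ℚ pb.gen) := by
      have h4 : aeval (z : ℚ_[ℓ]) P = aeval (z : ℚ_[ℓ]) (P.map (Int.castRingHom ℚ)) := by
        rw [← algebraMap_int_eq, Polynomial.aeval_map_algebraMap]
      rw [h4, hP', map_mul, aeval_C]
      simp
    rw [h2] at h1
    have hn' : (n : ℚ_[ℓ]) ≠ 0 := by exact_mod_cast nonZeroDivisors.ne_zero hn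
    exact (mul_eq_zero.1 h1).resolve_left hn'
  let ψ : FractionRing O →ₐ[ℚ] ℚ_[ℓ] := pb.lift (z : ℚ_[ℓ]) hroot
  let f : O →+* ℚ_[ℓ] := ψ.toRingHom.comp (algebraMap O (FractionRing O))
  have hfinj : Function.Injective f := ψ.toRingHom.injective.comp hinj
  have hf : ∀ x, f x ∈ PadicInt.subring ℓ := by
    intro x
    have h1 : IsIntegral ℤ x := Algebra.IsIntegral.isIntegral x
    have h2 : IsIntegral ℤ (f x) := map_isIntegral_int f h1
    have h3 : IsIntegral ℤ_[ℓ] (f x) := h2.tower_top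
    obtain ⟨y, hy⟩ := IsIntegrallyClosed.isIntegral_iff.1 h3
    rw [← hy]
    exact y.2
  refine ⟨(f.codRestrict (PadicInt.subring ℓ) hf : O →+* ℤ_[ℓ]), ?_⟩
  intro x y hxy
  apply hfinj
  exact congrArg Subtype.val hxy

/-- **SPLIT (infinite form).** -/
theorem infinite_setOf_padicInt_hom (O : Type*) [CommRing O] [IsDomain O] [CharZero O]
    [Module.Finite ℤ O] :
    {ℓ : ℕ | ∃ (_ : Fact ℓ.Prime) (ι : O →+* ℤ_[ℓ]), Function.Injective ι}.Infinite := by
  intro hfin
  obtain ⟨ℓ, hfact, hℓ, ι, hι⟩ := exists_padicInt_hom O hfin.toFinset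
  exact hℓ (hfin.mem_toFinset.2 ⟨hfact, ι, hι⟩)

/-- A finite `ℤ`-module is countable. -/
theorem countable_of_finite_int (O : Type*) [AddCommGroup O] [Module.Finite ℤ O] :
    Countable O := by
  obtain ⟨n, f, hf⟩ := Module.Finite.exists_fin' ℤ O
  exact hf.countable

end Fermat.Agent.S48.H368
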